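import Fermat.Agent.S40.Defs
import Fermat.Agent.SS.Top35.Geo
import Fermat.Agent.SS.Top35.NormBC

/-!
# S40 / GEO / PULL : passage to the rigid level `M' * c * p`, `c = 4, 9`

`B = β_c^* : J₀(M' p) → J₀(M' c p)` is Galois equivariant, injective on torsion (`SS.exists_pull`) and maps `p`-new classes to `p`-new
classes (Kummer form of the push-forwards + `SS.normAlong_alpha_bc`, `SS.normAlong_beta_bc`).
-/

set_option autoImplicit false

noncomputable section

open AlgebraicCurve ModularCurve CongruenceSubgroup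

namespace Fermat.Agent.S40

open Fermat.Agent.GAL Fermat.Agent.GAL.PC Fermat.Agent.SS Fermat.Agent.RED

local notation "Qbar" => AlgebraicClosure ℚ
local notation "GQ" => (AlgebraicClosure ℚ ≃ₐ[ℚ] AlgebraicClosure ℚ)

section Abs

variable {K F F' : Type*} [Field K] [Field F] [Field F'] [Algebra K F] [Algebra K F']
variable (φ : F →ₐ[K] F') (hφ : φ.toRingHom.IsIntegral) (hfin : FiniteAlong K φ)
  (hN : NormFormulaAlong K φ hfin)

/-- converse of `SS.exists_normAlong_eq_of_pushPic0_eq_zero`. -/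
theorem pushPic0_eq_zero_of_normAlong_eq {m : ℕ} (hm : m ≠ 0)
    {D : Divisor.degZero (K := K) (F := F')} {f : F'}
    (hf : TorsES.IsDiv (m : ℤ) (D : Divisor K F') f) {h : F}
    (hh : TorsES.normAlong φ f = h ^ m) : pushPic0 φ hφ hfin hN (Pic0.mk D) = 0 := by
  have hNf : TorsES.IsDiv (m : ℤ) (Divisor.pushforwardAlong φ hφ (D : Divisor K F'))
      (TorsES.normAlong φ f) := by
    letI := algebraAlong φ
    haveI := isScalarTower_along φ
    haveI := isIntegral_along φ hφ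
    haveI : Module.Finite F F' := hfin
    refine ⟨Algebra.norm_ne_zero_iff.mpr hf.1, fun v => ?_⟩
    have h1 : ∀ w : Place K F', ((m : ℤ) • (D : Divisor K F')) w = w.ord f := fun w => by
      rw [Finsupp.smul_apply, smul_eq_mul, hf.2 w]
    have h2 := hN f hf.1 ((m : ℤ) • (D : Divisor K F')) h1 v
    have h3 : Divisor.pushforward F ((m : ℤ) • (D : Divisor K F')) =
        (m : ℤ) • Divisor.pushforward F (D : Divisor K F') := map_zsmul _ _ _
    rw [h3, Finsupp.smul_apply, smul_eq_mul] at h2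
    exact h2
  have hh0 : h ≠ 0 := by
    rintro rfl
    rw [zero_pow hm] at hh
    exact hNf.1 hh
  rw [pushPic0_mk]
  refine TorsES.mk_eq_zero_of_isDiv (m := (m : ℤ)) (Nat.cast_ne_zero.2 hm)
    (g := TorsES.normAlong φ f) ?_ ⟨h, hh0, fun P => ?_⟩
  · rw [coe_pushDegZero]
    exact hNf
  · rw [hh, ← zpow_natCast, P.ord_zpow]

end Abs

/-- the pull-back to the rigid level preserves `p`-new classes. -/
theorem exists_pull_new (M' p c : ℕ) [NeZero M'] [hp : Fact p.Prime] [NeZero c]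
    (hc : c = 4 ∨ c = 9) (hpM : ¬ p ∣ M' * c) :
    ∃ B : JZero (M' * p) →+ JZero (M' * c * p),
      (∀ (σ : GQ) (x : JZero (M' * p)), B (σ • x) = σ • B x) ∧
      (∀ m : ℕ, m ≠ 0 → ∀ x : JZero (M' * p), m • x = 0 → B x = 0 → x = 0) ∧
      (∀ y : JZero (M' * p), IsPNew M' p y → IsPNew (M' * c) p (B y)) := by
  obtain ⟨B, hBσ, hBinj, hBdiv⟩ := exists_pull (M' * p) c (M' * c * p) hc (Nat.mul_right_comm _ _ _)
  refine ⟨B, hBσ, hBinj, ?_⟩
  rintro y ⟨hy, hyA, hyB⟩
  have hp0 : p ≠ 0 := hp.out.ne_zero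
  obtain ⟨D, rfl⟩ := Pic0.mk_surjective y
  obtain ⟨f, hf⟩ := TorsES.exists_isDiv_of_nsmul_eq_zero hy
  obtain ⟨h, -, hh⟩ := exists_normAlong_eq_of_pushPic0_eq_zero _ _ _ _
    (RB.isSepParam_jF M') hp0 hf hyA
  obtain ⟨h', -, hh'⟩ := exists_normAlong_eq_of_pushPic0_eq_zero _ _ _ _
    (RB.isSepParam_jF M') hp0 hf hyB
  obtain ⟨D', f', hD', hf', hcoe⟩ := hBdiv _ D f hf
  refine ⟨by rw [← map_nsmul, hy, map_zero], ?_, ?_⟩
  · rw [hD']
    refine pushPic0_eq_zero_of_normAlong_eq _ _ _ _ hp0 hf' (h := heckeBetaBar Qbar M' c h) ?_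
    apply Subtype.ext
    rw [normAlong_alpha_bc M' c p hpM f f' hcoe, hh]
    push_cast
    rw [map_pow, coe_heckeBetaBar]
  · rw [hD']
    refine pushPic0_eq_zero_of_normAlong_eq _ _ _ _ hp0 hf' (h := heckeBetaBar Qbar M' c h') ?_
    apply Subtype.ext
    rw [normAlong_beta_bc M' c p hpM f f' hcoe, hh']
    push_cast
    rw [map_pow, coe_heckeBetaBar]

end Fermat.Agent.S40
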