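import Fermat.Agent.S40.New
import Fermat.Agent.S40.Geo.Pull
import Fermat.Agent.S33.Geo.Defs
import Fermat.Agent.SS.Top35.CompatF

/-!
# S40 / GEO / A : `GeoA M' p` from the interface (NEW-p) (`S33.NewP`) at the rigid levels

`y` in the eigen-subgroup is `p`-new (`isPNew_of_mem_eigA`); `z = τ y - y` is `p`-new; its pull-back `B z = τ (B y) - B y` to the rigid level
`M' c p` is `p`-new (`exists_pull_new`) and toric (`SS.isToric_smul_sub`); (NEW-p) gives `τ' (B z) = χ(τ') B z`; `B` is injective on torsion.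

`actsChi_of_toric_pull` is the same argument for ANY `p`-new class whose pull-back is toric: this is the last step of GeoB.
-/

set_option autoImplicit false
set_option linter.style.haveILetI false

noncomputable section

open AlgebraicCurve ModularCurve CongruenceSubgroup IsLocalRing

namespace Fermat.Agent.S40

open Fermat.Agent.GAL Fermat.Agent.GAL.PC Fermat.Agent.SS
open Fermat.Agent.RED hiding Kb

local notation "Qbar" => AlgebraicClosure ℚ
local notation "GQ" => (AlgebraicClosure ℚ ≃ₐ[ℚ] AlgebraicClosure ℚ)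

/-- (NEW-p) at all rigid levels. -/
def NewPAll (p : ℕ) : Prop :=
  ∀ (M : ℕ) [NeZero M] [Fact p.Prime] (hpM : ¬ p ∣ M), (4 ∣ M ∨ 9 ∣ M) → S33.NewP M p hpM

theorem isPNew_smul_sub {M' p : ℕ} [NeZero M'] [NeZero p] {y : JZero (M' * p)}
    (hy : IsPNew M' p y) (τ : GQ) : IsPNew M' p (τ • y - y) := by
  obtain ⟨h1, h2, h3⟩ := hy
  refine ⟨?_, ?_, ?_⟩
  · have h := map_nsmul (DistribSMul.toAddMonoidHom (JZero (M' * p)) τ) p y
    rw [h1, map_zero] at h
    rw [nsmul_sub, h1, sub_zero]
    exact h.symm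
  · rw [map_sub, pushA_smul, h2, sub_zero]
    exact map_zero (DistribSMul.toAddMonoidHom (JZero M') τ)
  · rw [map_sub, pushB_smul, h3, sub_zero]
    exact map_zero (DistribSMul.toAddMonoidHom (JZero M') τ)

/-- a `p`-new class at a rigid level which is toric: inertia acts through the cyclotomic character. -/
theorem actsChi_of_toric {M p : ℕ} [NeZero M] [hp : Fact p.Prime] (hpM : ¬ p ∣ M)
    (hNew : S33.NewP M p hpM) (A : ValuationSubring Qbar) (hA : A.LiesOverPrime p)
    [CharP (ResidueField A) p] [IsAlgClosed (ResidueField A)] {z : JZero (M * p)}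
    (hz : IsPNew M p z) (ht : IsToric (twoRed hpM (residue A) residue_surjective) p z) :
    ActsChi p A z := fun τ hτ =>
  hNew A hA τ hτ _ (fun _ hζ => cycloChar_spec p τ hζ) z hz.1 ht hz.2.1 hz.2.2

/-- descent of `ActsChi` along an equivariant homomorphism which is injective on torsion. -/
theorem actsChi_of_map {J J' : Type*} [AddCommGroup J] [AddCommGroup J'] [DistribMulAction GQ J]
    [DistribMulAction GQ J'] {p : ℕ} [NeZero p] (A : ValuationSubring Qbar) (B : J →+ J')
    (hBσ : ∀ (σ : GQ) (x : J), B (σ • x) = σ • B x)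
    (hBinj : ∀ x : J, p • x = 0 → B x = 0 → x = 0) {z : J} (hz : p • z = 0)
    (h : ActsChi p A (B z)) : ActsChi p A z := by
  intro τ hτ
  have h1 := h τ hτ
  rw [← hBσ, ← map_nsmul, ← sub_eq_zero, ← map_sub] at h1
  refine sub_eq_zero.1 (hBinj _ ?_ h1)
  have h2 := map_nsmul (DistribSMul.toAddMonoidHom J τ) p z
  rw [hz, map_zero] at h2
  have h3 : p • (τ • z) = 0 := h2.symm
  rw [nsmul_sub, h3, nsmul_left_comm, hz, smul_zero, sub_zero]

/-- **(GeoA) from (NEW-p).** -/
theorem geoA_of_newP {M' p : ℕ} [NeZero M'] [NeZero p] (hp : p.Prime) (hpM' : ¬ p ∣ M')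
    (hNew : NewPAll p) : GeoA M' p := by
  intro S a hsys A hA y hy τ hτ
  haveI : Fact p.Prime := ⟨hp⟩
  haveI : IsAlgClosed (ResidueField A) := GalEq.isAlgClosed_residueField A
  haveI : CharP (ResidueField A) p := GalEq.charP_residueField hp hA
  have hpMc : ¬ p ∣ M' * aux p := not_dvd_mul_aux hp hpM'
  have h49 : 4 ∣ M' * aux p ∨ 9 ∣ M' * aux p := by
    rcases aux_eq p with h | h <;> rw [h] <;> simp
  haveI : NeZero (aux p) := ⟨by rcases aux_eq p with h | h <;> rw [h] <;> simp⟩
  obtain ⟨B, hBσ, hBinj, hBnew⟩ := exists_pull_new M' p (aux p) (aux_eq p) hpMc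
  have hynew := isPNew_of_mem_eigA hp hsys hy
  have hznew := isPNew_smul_sub hynew τ
  obtain ⟨𝒩, hI, -⟩ := exists_nodalData_compat hpMc A h49 hA
  have htor : IsToric (twoRed hpMc (residue A) residue_surjective) p (B (τ • y - y)) := by
    rw [map_sub, hBσ]
    exact isToric_smul_sub 𝒩 (RB.isSepParam_jF (M' * aux p * p)) hp.ne_zero (hI τ hτ)
      (y := B y) (by rw [← map_nsmul, hynew.1, map_zero])
  exact actsChi_of_map A B hBσ (fun x hx => hBinj p hp.ne_zero x hx) hznew.1
    (actsChi_of_toric hpMc (hNew (M' * aux p) hpMc h49) A hA (hBnew _ hznew) htor)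

end Fermat.Agent.S40
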