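import Fermat.Agent.S40.Geo.GammaUp
import Fermat.Agent.S40.New
import Fermat.Agent.S40.Kill.Eigen
import Fermat.Agent.MAZ.Geo.Heq

/-!
# S40 / GEO / [GAMMA] : Hecke operators and the pull-backs `B^*`   (owner: helper81)   = the algebra of (A4), (A5) of helper38 #2155

`φ : F_N → F_{N'}` any `Kb`-algebra hom which is `T ↦ T ^ c` on expansions, `N' = N c`.

* `jPull_hecke_of_coe`, `jPull_TJ`, `jPull_poly` : `φ^* t(T) = t(T) φ^*` for the polynomials in the `T_ℓ`, `ℓ ∉ S` (`S ⊇` primes of `N'`).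
* `jPull_Bp_hecke`, `jPull_Bp_mem_eigA` : `x ∈ eigA (M' p) ⟹ B^* x ∈ eigA (M' c p)`.
* `polyJ_apply_of_mem_eigA` : `t(T) y = θ_a(t) • y` on the eigen-subgroup.
* `poly_GamE_jPull` : **(A5)** `t(T) Γ (B^* x) = (θ_a(t) * 4) • B^* x`.
* `red_poly_gam_eq_zero` : **(A4)** `red (t₀(T) Γ' y') = 0` for ALL `y' ∈ J₀(M' c)` if `t₀` kills `S₂(Γ₀(M'))`; `Γ' = β^* β_*`.
-/

set_option autoImplicit false
set_option linter.unusedSectionVars false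
set_option linter.style.haveILetI false
set_option synthInstance.maxHeartbeats 400000

noncomputable section

open AlgebraicCurve ModularCurve IsLocalRing

namespace Fermat.Agent.S40

open Fermat.Agent.GAL Fermat.Agent.GAL.PC
open Fermat.Agent.RED hiding GQ Kb
open Fermat.Agent.RED.ES Fermat.Agent.S24 Fermat.Agent.SS
open Fermat.Agent.RIB Fermat.Agent.S40.Kill

local notation "GQ" => (AlgebraicClosure ℚ ≃ₐ[ℚ] AlgebraicClosure ℚ)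

/-! ### `φ^*` and the Hecke operators -/

section Gen

variable {N c N' : ℕ} [NeZero N] [NeZero c] [NeZero N']

theorem jPull_hecke_of_coe (hN' : N' = N * c) (φ : FN N →ₐ[Kb] FN N')
    (hφ : ∀ x, ((φ x : FN N') : LaurentSeries Kb) = qExpand Kb c (x : LaurentSeries Kb))
    (m : Nat.Primes) (hm : ¬ (m : ℕ) ∣ N') (x : JZero N) :
    jPull φ (heckeOperatorBar N m x) = heckeOperatorBar N' m (jPull φ x) := by
  subst hN'
  have h1 : φ = heckeBetaBar Kb N c :=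
    AlgHom.ext fun x => Subtype.ext (by rw [hφ, coe_heckeBetaBar])
  subst h1
  exact MAZ.Bstar_heckeOperatorBar N c (heckeInputsAlong' N c) m hm x

theorem isRat_of_coe (hN' : N' = N * c) (φ : FN N →ₐ[Kb] FN N')
    (hφ : ∀ x, ((φ x : FN N') : LaurentSeries Kb) = qExpand Kb c (x : LaurentSeries Kb))
    (σ : GQ) (x : JZero N) : jPull φ (σ • x) = σ • jPull φ x := by
  subst hN'
  have h1 : φ = heckeBetaBar Kb N c :=
    AlgHom.ext fun x => Subtype.ext (by rw [hφ, coe_heckeBetaBar])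
  subst h1
  exact Bstar_smul N c (heckeInputsAlong' N c) σ x

theorem jPull_TJ (hN' : N' = N * c) (φ : FN N →ₐ[Kb] FN N')
    (hφ : ∀ x, ((φ x : FN N') : LaurentSeries Kb) = qExpand Kb c (x : LaurentSeries Kb))
    (S : Set ℕ) (hS : ∀ ℓ : ℕ, ℓ.Prime → ℓ ∉ S → ¬ ℓ ∣ N') (ℓ : ℕ) (x : JZero N) :
    jPull φ (TJ N S ℓ x) = TJ N' S ℓ (jPull φ x) := by
  by_cases h : ℓ.Prime ∧ ℓ ∉ S
  · rw [TJ_of_good h.1 h.2, TJ_of_good h.1 h.2]
    exact jPull_hecke_of_coe hN' φ hφ ⟨ℓ, h.1⟩ (hS ℓ h.1 h.2) x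
  · rw [TJ_of_bad h, TJ_of_bad h, LinearMap.zero_apply, LinearMap.zero_apply, map_zero]

/-- `φ^* t(T) = t(T) φ^*`. -/
theorem jPull_poly (hN' : N' = N * c) (φ : FN N →ₐ[Kb] FN N')
    (hφ : ∀ x, ((φ x : FN N') : LaurentSeries Kb) = qExpand Kb c (x : LaurentSeries Kb))
    (S : Set ℕ) (hS : ∀ ℓ : ℕ, ℓ.Prime → ℓ ∉ S → ¬ ℓ ∣ N')
    (f : MvPolynomial ℕ ℤ →+* Module.End ℤ (JZero N)) (hf : ∀ ℓ, f (MvPolynomial.X ℓ) = TJ N S ℓ)
    (f' : MvPolynomial ℕ ℤ →+* Module.End ℤ (JZero N'))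
    (hf' : ∀ ℓ, f' (MvPolynomial.X ℓ) = TJ N' S ℓ) (t : MvPolynomial ℕ ℤ) (x : JZero N) :
    jPull φ (f t x) = f' t (jPull φ x) := by
  induction t using MvPolynomial.induction_on generalizing x with
  | C a =>
    rw [eq_intCast (MvPolynomial.C : ℤ →+* MvPolynomial ℕ ℤ) a, map_intCast, map_intCast,
      Module.End.intCast_apply, Module.End.intCast_apply, map_zsmul]
  | add P Q hP hQ =>
    rw [map_add, map_add, LinearMap.add_apply, LinearMap.add_apply, map_add, hP, hQ]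
  | mul_X P ℓ hP =>
    rw [map_mul, map_mul, Module.End.mul_apply, Module.End.mul_apply, hP, hf, hf',
      jPull_TJ hN' φ hφ S hS]

end Gen

/-! ### the eigen-subgroup -/

theorem TJ_apply_of_mem_eigA {M p : ℕ} [NeZero M] {S : Set ℕ} {a : ℕ → ℤ} {y : JZero M}
    (hy : y ∈ eigA M p S a) (ℓ : ℕ) : TJ M S ℓ y = cutS S a ℓ • y := by
  by_cases h : ℓ.Prime ∧ ℓ ∉ S
  · rw [TJ_of_good h.1 h.2, cutS_of_good h.1 h.2]
    exact hy.2 ⟨ℓ, h.1⟩ h.2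
  · rw [TJ_of_bad h, cutS_of_bad h, LinearMap.zero_apply]
    exact (zero_zsmul y).symm

/-- `t(T) y = θ_a(t) • y` on the eigen-subgroup. -/
theorem polyJ_apply_of_mem_eigA {M p : ℕ} [NeZero M] {S : Set ℕ} {a : ℕ → ℤ}
    (f : MvPolynomial ℕ ℤ →+* Module.End ℤ (JZero M)) (hf : ∀ ℓ, f (MvPolynomial.X ℓ) = TJ M S ℓ)
    (t : MvPolynomial ℕ ℤ) {y : JZero M} (hy : y ∈ eigA M p S a) :
    f t y = MvPolynomial.aeval (cutS S a) t • y :=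
  poly_apply_abs f (cutS S a) y (fun ℓ => by rw [hf]; exact TJ_apply_of_mem_eigA hy ℓ) t

section Bp

variable (M' c p : ℕ) [NeZero M'] [NeZero c] [NeZero p]

theorem jPull_Bp_hecke (m : Nat.Primes) (hm : ¬ (m : ℕ) ∣ M' * c * p) (x : JZero (M' * p)) :
    jPull (Bp M' c p) (heckeOperatorBar (M' * p) m x) =
      heckeOperatorBar (M' * c * p) m (jPull (Bp M' c p) x) :=
  jPull_hecke_of_coe (Nat.mul_right_comm _ _ _) (Bp M' c p) (coe_Bp M' c p) m hm x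

variable {M' c p}

theorem jPull_Bp_mem_eigA {S : Set ℕ} {a : ℕ → ℤ}
    (hS : ∀ ℓ : ℕ, ℓ.Prime → ℓ ∉ S → ¬ ℓ ∣ M' * c * p) {x : JZero (M' * p)}
    (hx : x ∈ eigA (M' * p) p S a) : jPull (Bp M' c p) x ∈ eigA (M' * c * p) p S a := by
  refine ⟨by rw [← map_nsmul, hx.1, map_zero], fun ℓ hℓ => ?_⟩
  rw [← jPull_Bp_hecke M' c p ℓ (hS ℓ ℓ.2 hℓ), hx.2 ℓ hℓ, map_zsmul]

/-- the primes outside `S` do not divide `M' 4 p` (`M'` even). -/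
theorem not_dvd_four_of_lvl {M' p : ℕ} (h2 : 2 ∣ M') {S : Set ℕ}
    (hS : ∀ ℓ : ℕ, ℓ.Prime → ℓ ∣ M' * p → ℓ ∈ S) (ℓ : ℕ) (hℓ : ℓ.Prime) (hℓS : ℓ ∉ S) :
    ¬ ℓ ∣ M' * 4 * p := by
  intro hd
  apply hℓS
  rcases (Nat.Prime.dvd_mul hℓ).1 hd with h | h
  · rcases (Nat.Prime.dvd_mul hℓ).1 h with h | h
    · exact hS ℓ hℓ (Dvd.dvd.mul_right h p)
    · have h4 : ℓ ∣ 2 ^ 2 := by simpa using h
      have : ℓ = 2 := (Nat.prime_dvd_prime_iff_eq hℓ Nat.prime_two).1 (hℓ.dvd_of_dvd_pow h4)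
      subst this
      exact hS 2 hℓ (Dvd.dvd.mul_right h2 p)
  · exact hS ℓ hℓ (Dvd.dvd.mul_left h M')

end Bp

/-- **(A5)** `t(T) Γ (B^* x) = (θ_a(t) * 4) • B^* x`. -/
theorem poly_GamE_jPull {M' p : ℕ} [NeZero M'] [hp : Fact p.Prime] (h2 : 2 ∣ M') {S : Set ℕ}
    {a : ℕ → ℤ} (hS : ∀ ℓ : ℕ, ℓ.Prime → ℓ ∣ M' * p → ℓ ∈ S)
    (f : MvPolynomial ℕ ℤ →+* Module.End ℤ (JZero (M' * 4 * p)))
    (hf : ∀ ℓ, f (MvPolynomial.X ℓ) = TJ (M' * 4 * p) S ℓ) (t : MvPolynomial ℕ ℤ)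
    {x : JZero (M' * p)} (hx : x ∈ eigA (M' * p) p S a) :
    f t (GamE M' 4 p (jPull (Bp M' 4 p) x)) =
      (MvPolynomial.aeval (cutS S a) t * 4) • jPull (Bp M' 4 p) x := by
  have hB := jPull_Bp_mem_eigA (c := 4) (not_dvd_four_of_lvl h2 hS) hx
  rw [GamE_jPull_four M' p h2, map_nsmul, polyJ_apply_of_mem_eigA f hf t hB]
  generalize jPull (Bp M' 4 p) x = z
  generalize MvPolynomial.aeval (cutS S a) t = n
  rw [mul_comm n 4, mul_zsmul]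
  exact (natCast_zsmul (n • z) 4).symm

/-! ### (A4) : the kill at the good level -/

section Kill

variable {M₀ c M p : ℕ} [NeZero M₀] [NeZero c] [NeZero M]

/-- **(A4)**, level-agnostic : `red (t₀(T) φ^* z) = 0` for all `z ∈ J₀(M₀)`. -/
theorem red_poly_jPull_eq_zero (hp : p.Prime) (hpM : ¬ p ∣ M) (A : ValuationSubring Kb)
    (hA : A.LiesOverPrime p) (h : ReductionInputsModL A M) (hM : M = M₀ * c)
    (φ : FN M₀ →ₐ[Kb] FN M)
    (hφ : ∀ x, ((φ x : FN M) : LaurentSeries Kb) = qExpand Kb c (x : LaurentSeries Kb))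
    (S : Set ℕ) (hS : ∀ ℓ : ℕ, ℓ.Prime → ℓ ∉ S → ¬ ℓ ∣ M)
    (f' : MvPolynomial ℕ ℤ →+* Module.End ℤ (JZero M))
    (hf' : ∀ ℓ, f' (MvPolynomial.X ℓ) = TJ M S ℓ)
    (t₀ : MvPolynomial ℕ ℤ) (ht₀ : MvPolynomial.aeval (heckeT M₀ S) t₀ = 0) (z : JZero M₀) :
    reductionModL A M (f' t₀ (jPull φ z)) = 0 := by
  obtain ⟨f, hf⟩ := exists_polyJ M₀ S
  have hS₀ : ∀ ℓ : ℕ, ℓ.Prime → ℓ ∉ S → ¬ ℓ ∣ M₀ := fun ℓ hℓ hℓS hd =>
    hS ℓ hℓ hℓS (hM ▸ Dvd.dvd.mul_right hd c)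
  rw [← jPull_poly hM φ hφ S hS f hf f' hf']
  exact reductionModL_eq_zero_of_kills_torsion hp hpM A hA h
    ((jPull φ).comp (f t₀).toAddMonoidHom)
    (fun σ x => by
      rw [AddMonoidHom.comp_apply, AddMonoidHom.comp_apply]
      show jPull φ (f t₀ (σ • x)) = σ • jPull φ (f t₀ x)
      rw [poly_smul S f hf t₀ σ x, isRat_of_coe hM φ hφ])
    (fun n hn x hx => by
      rw [AddMonoidHom.comp_apply]
      show jPull φ (f t₀ x) = 0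
      rw [poly_kills_torsion S hS₀ f hf t₀ ht₀ n hn x hx, map_zero]) z

/-- **(A4)** `red (t₀(T) Γ' y') = 0`, `Γ' = φ^* φ_*`. -/
theorem red_poly_gam_eq_zero (hp : p.Prime) (hpM : ¬ p ∣ M) (A : ValuationSubring Kb)
    (hA : A.LiesOverPrime p) (h : ReductionInputsModL A M) (hM : M = M₀ * c)
    (φ : FN M₀ →ₐ[Kb] FN M)
    (hφ : ∀ x, ((φ x : FN M) : LaurentSeries Kb) = qExpand Kb c (x : LaurentSeries Kb))
    (S : Set ℕ) (hS : ∀ ℓ : ℕ, ℓ.Prime → ℓ ∉ S → ¬ ℓ ∣ M)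
    (f' : MvPolynomial ℕ ℤ →+* Module.End ℤ (JZero M))
    (hf' : ∀ ℓ, f' (MvPolynomial.X ℓ) = TJ M S ℓ)
    (t₀ : MvPolynomial ℕ ℤ) (ht₀ : MvPolynomial.aeval (heckeT M₀ S) t₀ = 0) (y : JZero M) :
    reductionModL A M (f' t₀ (jPull φ (jPush φ y))) = 0 :=
  red_poly_jPull_eq_zero hp hpM A hA h hM φ hφ S hS f' hf' t₀ ht₀ (jPush φ y)

end Kill

end Fermat.Agent.S40
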