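import Fermat.Agent.SSP.FDA
import Fermat.Agent.SSP.FDB
import Fermat.Agent.SSP.FD0B

/-!
# S40 / GEO : the Eisenstein step on the FUNCTION, abstract form  (helper87 #1876 (3), helper38 #2155 (A1))

`T : TwoRed K F k Fb`, `𝒢 : Geo 𝒩`, `𝒲 : Wild T τ p` as in `SSP/`.  `Tx : F →* F` an abstract "multiplicative Hecke operator"
(`Tx u = N_α (β u)`, `d = ℓ + 1`) with the formal properties `HeckeOp`:

* `Tx c = c ^ d` on the constants;
* `Tx` preserves the units of the two valuations;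
* `Tx` preserves the congruence subgroups `1 + c 𝔪_i` (`c` a constant of valuation `< 1`).

For `f ∈ Rat` with `div f = p D` put `f₂ := Tx f / f ^ d`.  Then `f₂` is a unit for both valuations and the divisors of its two reductions are
divisible by `p` (`eis_wild`: from `fdA` + `fdB`; `eis_tame`: from `fd0B`).

Proof of `eis_wild`.  `fdA` gives `n m b₁ b₂`; `f' := f / z0 ^ n`; `f₂ = Tx f' / f' ^ d` because `Tx (z0 ^ n) = (z0 ^ n) ^ d`.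
So `f₂` is a `v₁`-unit; in the same way (`f' / z0 ^ (p m)`) it is a `v₂`-unit.  `γ := τ f' / f' = 1 + c⋆ Ω(f')`, `c⋆ = η ^ p`,
`τ f₂ / f₂ = Tx γ / γ ^ d`.  Fix `i`, let `β` be a constant lifting `b_i`, `κ := 1 + c⋆ β`.  Then `γ / κ ∈ 1 + c⋆ 𝔪_i`, hence
`Tx (γ / κ) = Tx γ / κ ^ d ∈ 1 + c⋆ 𝔪_i` and `(γ / κ) ^ d ∈ 1 + c⋆ 𝔪_i`, so `Tx γ / γ ^ d ∈ 1 + c⋆ 𝔪_i`: `rd_i Ω(f₂) = 0`.  `fdB` with `b = 0`.
-/

set_option autoImplicit false

open AlgebraicCurve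

namespace Fermat.Agent.S40

open Fermat.Agent.RED Fermat.Agent.S24 Fermat.Agent.SS Fermat.Agent.SSP

variable {K F k Fb : Type*} [Field K] [Field F] [Algebra K F] [Field k] [Field Fb] [Algebra k Fb]

/-- the formal properties of `u ↦ N_α (β u)` for ONE valuation ring. -/
structure HeckeOpAt (O : ValuationSubring F) (Tx : F →* F) : Prop where
  unit : ∀ u : F, O.valuation u = 1 → O.valuation (Tx u) = 1
  cong : ∀ (c : K) (u : F), O.valuation (algebraMap K F c) < 1 →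
    Calc.Cg O (algebraMap K F c) u 0 → Calc.Cg O (algebraMap K F c) (Tx u) 0

/-- the formal properties of `u ↦ N_α (β u)`. -/
structure HeckeOp (T : TwoRed K F k Fb) (Tx : F →* F) (d : ℕ) : Prop where
  const : ∀ c : K, Tx (algebraMap K F c) = algebraMap K F c ^ d
  at₁ : HeckeOpAt (K := K) T.R₁.O Tx
  at₂ : HeckeOpAt (K := K) T.R₂.O Tx

section Aux

variable {Tx : F →* F} {d : ℕ}

theorem map_inv_monoidHom (Tx : F →* F) (u : F) (hu : u ≠ 0) : Tx u⁻¹ = (Tx u)⁻¹ := by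
  have h : Tx u⁻¹ * Tx u = 1 := by rw [← map_mul, inv_mul_cancel₀ hu, map_one]
  exact eq_inv_of_mul_eq_one_left h

theorem map_ne_zero_monoidHom (Tx : F →* F) {u : F} (hu : u ≠ 0) : Tx u ≠ 0 := by
  intro h0
  have h : Tx u⁻¹ * Tx u = 1 := by rw [← map_mul, inv_mul_cancel₀ hu, map_one]
  rw [h0, mul_zero] at h
  exact zero_ne_one h

/-- `Tx u / u ^ d` does not change if `u` is multiplied by a constant -/
theorem quot_mul_const (hc : ∀ c : K, Tx (algebraMap K F c) = algebraMap K F c ^ d) (u : F) {c : K}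
    (hc0 : c ≠ 0) :
    Tx (u * algebraMap K F c) * ((u * algebraMap K F c) ^ d)⁻¹ = Tx u * (u ^ d)⁻¹ := by
  have h0 : algebraMap K F c ≠ 0 := by simpa using hc0
  rw [map_mul, hc, mul_pow, mul_inv]
  field_simp

end Aux

section One

variable {O : ValuationSubring F} {Tx : F →* F} {d : ℕ}

/-- the computation for one valuation. -/
theorem cg_quot (hT : HeckeOpAt (K := K) O Tx)
    (hconst : ∀ c : K, Tx (algebraMap K F c) = algebraMap K F c ^ d) {c β : K}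
    (hc : O.valuation (algebraMap K F c) < 1) (hβ : algebraMap K F β ∈ O) {γ φ : F}
    (hγ : γ = 1 + algebraMap K F c * φ) (hφ : O.valuation (φ - algebraMap K F β) < 1) :
    Calc.Cg O (algebraMap K F c) (Tx γ * (γ ^ d)⁻¹) 0 := by
  set C : F := algebraMap K F c with hC
  set κ : K := 1 + c * β with hκ
  have hκF : algebraMap K F κ = 1 + C * algebraMap K F β := by
    rw [hκ, map_add, map_one, map_mul]
  have hκ1 : O.valuation (algebraMap K F κ) = 1 := by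
    have h1 : O.valuation (C * algebraMap K F β) < 1 := Calc.lt_mul O hc hβ
    rw [hκF, add_comm]
    have := Valuation.map_add_eq_of_lt_right O.valuation (x := C * algebraMap K F β) (y := 1)
      (by rwa [map_one])
    rw [this, map_one]
  have hκ0F : algebraMap K F κ ≠ 0 := ne_zero_of_val_one hκ1
  have hκ0 : κ ≠ 0 := by
    rintro h
    rw [h, map_zero] at hκ0F
    exact hκ0F rfl
  have hκi : (algebraMap K F κ)⁻¹ ∈ O := mem_of_val_le (by rw [map_inv₀, hκ1, inv_one])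
  -- `γ / κ ∈ 1 + c 𝔪`
  have h1 : Calc.Cg O C (γ * algebraMap K F κ⁻¹) 0 := by
    refine ⟨(φ - algebraMap K F β) * (algebraMap K F κ)⁻¹, Calc.lt_mul O hφ hκi, ?_⟩
    rw [map_inv₀, hγ]
    field_simp
    rw [hκF]
    ring
  have h2 := hT.cong c _ hc h1
  have h3 := (h1.pow hc O.zero_mem d).inv hc (by simp)
  have h4 := h2.mul hc O.zero_mem (by simp) h3
  rw [quot_mul_const hconst γ (inv_ne_zero hκ0)] at h4
  simpa using h4

end One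

variable {T : TwoRed K F k Fb} {𝒩 : NodalData T} (𝒢 : Geo 𝒩)

section Wild

variable {τ : SemilinearAut K F} {p : ℕ} (𝒲 : Wild T τ p)

/-- `Ω(f₂)` is in the maximal ideal. -/
theorem om_quot_lt {O : ValuationSubring F} {red : O →+* Fb} {r : Place K F → Place k Fb}
    {G : Set (Place k Fb)} (H : IsReductionOn O red r G)
    (hex : ∀ a : k, ∃ (c : K) (hc : algebraMap K F c ∈ O), red ⟨_, hc⟩ = algebraMap k Fb a)
    (hη : O.valuation (algebraMap K F 𝒲.η) < 1) (hp : p ≠ 0)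
    {Tx : F →* F} {d : ℕ} (hT : HeckeOpAt (K := K) O Tx)
    (hconst : ∀ c : K, Tx (algebraMap K F c) = algebraMap K F c ^ d)
    (hTτ : ∀ u : F, τ • Tx u = Tx (τ • u)) {f : F} (hf0 : f ≠ 0) (hO : 𝒲.Om f ∈ O) {b : k}
    (hb : rd O red (𝒲.Om f) = algebraMap k Fb b) :
    O.valuation (𝒲.Om (Tx f * (f ^ d)⁻¹)) < 1 := by
  have hη0 : 𝒲.η ≠ 0 := by
    intro h0
    apply 𝒲.μ_ne
    rw [← 𝒲.η_mul, h0, zero_mul]
  set c : K := 𝒲.η ^ p with hc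
  have hc0 : algebraMap K F c ≠ 0 := by
    rw [Ne, map_eq_zero_iff _ (algebraMap K F).injective]
    exact pow_ne_zero _ hη0
  have hc1 : O.valuation (algebraMap K F c) < 1 := by
    rw [hc, map_pow, map_pow]
    exact pow_lt_one₀ zero_le hη hp
  obtain ⟨β, hβ, hβb⟩ := hex b
  have hφ : O.valuation (𝒲.Om f - algebraMap K F β) < 1 := by
    rw [← H.rd_eq_zero_iff (O.sub_mem hO hβ), rd_of_mem (O.sub_mem hO hβ)]
    have : (⟨𝒲.Om f - algebraMap K F β, O.sub_mem hO hβ⟩ : O) = ⟨_, hO⟩ - ⟨_, hβ⟩ := rfl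
    rw [this, map_sub, hβb, ← hb, rd_of_mem hO, sub_self]
  have hτf0 : τ • f ≠ 0 := by
    intro h0
    apply hf0
    have := congrArg (fun z => τ⁻¹ • z) h0
    simpa using this
  have hγ : (τ • f) * f⁻¹ = 1 + algebraMap K F c * 𝒲.Om f := by
    rw [Wild.Om, ← hc]
    field_simp
    ring
  obtain ⟨ε, hε, he⟩ := cg_quot hT hconst hc1 hβ hγ hφ
  have hkey : (τ • (Tx f * (f ^ d)⁻¹)) * (Tx f * (f ^ d)⁻¹)⁻¹ =
      Tx ((τ • f) * f⁻¹) * (((τ • f) * f⁻¹) ^ d)⁻¹ := by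
    have hTf0 : Tx f ≠ 0 := map_ne_zero_monoidHom Tx hf0
    have hTτf0 : Tx (τ • f) ≠ 0 := map_ne_zero_monoidHom Tx hτf0
    rw [SemilinearAut.smul_def, map_mul, map_inv₀, map_pow, ← SemilinearAut.smul_def,
      ← SemilinearAut.smul_def, hTτ, map_mul, map_inv_monoidHom Tx f hf0, mul_pow, inv_pow]
    field_simp
  have : 𝒲.Om (Tx f * (f ^ d)⁻¹) = ε := by
    rw [Wild.Om, hkey, he, ← hc]
    field_simp
    ring
  rw [this]
  exact hε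

/-- **The Eisenstein step, wild case.** -/
theorem eis_wild [IsAlgClosed k] {tb : Fb} (hb : IsSepParam k tb) [Nonempty 𝒩.S] (hp : p.Prime)
    [CharP k p] (hτ : IsInert 𝒢 τ) {s : F} (hs : SlopeFn 𝒢 p s) (hsR : s ∈ 𝒲.Rat)
    (hsτ : τ • s = s) {Tx : F →* F} {d : ℕ} (hT : HeckeOp T Tx d)
    (hTτ : ∀ u : F, τ • Tx u = Tx (τ • u)) (hTR : ∀ u ∈ 𝒲.Rat, Tx u ∈ 𝒲.Rat)
    {f : F} (hf : f ∈ 𝒲.Rat) (hf0 : f ≠ 0) (D : Divisor K F)
    (hD : ∀ P : Place K F, P.ord f = p * D P) (hloc : LocEqs 𝒢 𝒲.Rat D)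
    (D₂ : Divisor K F) (hD₂ : ∀ P : Place K F, P.ord (Tx f * (f ^ d)⁻¹) = p * D₂ P)
    (hloc₂ : LocEqs 𝒢 𝒲.Rat D₂) :
    T.R₁.O.valuation (Tx f * (f ^ d)⁻¹) = 1 ∧ T.R₂.O.valuation (Tx f * (f ^ d)⁻¹) = 1 ∧
      (∀ Q : Place k Fb, (p : ℤ) ∣ Q.ord (rd₁ T (Tx f * (f ^ d)⁻¹))) ∧
      ∀ Q : Place k Fb, (p : ℤ) ∣ Q.ord (rd₂ T (Tx f * (f ^ d)⁻¹)) := by
  obtain ⟨n, m, b₁, b₂, h1, h2, hO1, hO2, hb1, hb2⟩ := fdA 𝒢 𝒲 hb hp hτ hs hsR hsτ hf hf0 D hD hloc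
  have hz : ∀ j : ℤ, (algebraMap K F 𝒲.z0 ^ j)⁻¹ = algebraMap K F ((𝒲.z0 ^ j)⁻¹) := fun j => by
    rw [map_inv₀, map_zpow₀]
  have hz0 : ∀ j : ℤ, (𝒲.z0 ^ j)⁻¹ ≠ 0 := fun j => inv_ne_zero (zpow_ne_zero _ 𝒲.z0_ne)
  set f' : F := f * (algebraMap K F 𝒲.z0 ^ n)⁻¹ with hf'
  have hf'0 : f' ≠ 0 := ne_zero_of_val_one h1
  have e1 : Tx f' * (f' ^ d)⁻¹ = Tx f * (f ^ d)⁻¹ := by
    rw [hf', hz, quot_mul_const hT.const f (hz0 n)]
  have e2 : Tx (f' * (algebraMap K F 𝒲.z0 ^ ((p : ℤ) * m))⁻¹) *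
      ((f' * (algebraMap K F 𝒲.z0 ^ ((p : ℤ) * m))⁻¹) ^ d)⁻¹ = Tx f * (f ^ d)⁻¹ := by
    rw [hz, quot_mul_const hT.const f' (hz0 _), e1]
  have hv1 : T.R₁.O.valuation (Tx f * (f ^ d)⁻¹) = 1 := by
    rw [← e1]
    exact val_mul_eq_one (hT.at₁.unit _ h1) (val_inv_eq_one (val_pow_eq_one h1 d))
  have hv2 : T.R₂.O.valuation (Tx f * (f ^ d)⁻¹) = 1 := by
    rw [← e2]
    exact val_mul_eq_one (hT.at₂.unit _ h2) (val_inv_eq_one (val_pow_eq_one h2 d))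
  have hR : Tx f * (f ^ d)⁻¹ ∈ 𝒲.Rat := mul_mem (hTR f hf) (inv_mem (pow_mem hf d))
  have hex₂ : ∀ a : k, ∃ (c : K) (hc : algebraMap K F c ∈ T.R₂.O),
      T.R₂.red ⟨_, hc⟩ = algebraMap k Fb a := T.R₂.exists_const
  have l1 : T.R₁.O.valuation (𝒲.Om (Tx f * (f ^ d)⁻¹)) < 1 := by
    rw [← e1]
    exact om_quot_lt 𝒲 𝒢.red₁ T.R₁.exists_const 𝒲.at₁.η_lt hp.ne_zero hT.at₁ hT.const hTτ hf'0 hO1
      hb1
  have l2 : T.R₂.O.valuation (𝒲.Om (Tx f * (f ^ d)⁻¹)) < 1 := by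
    rw [← e1]
    exact om_quot_lt 𝒲 𝒢.red₂ hex₂ 𝒲.at₂.η_lt hp.ne_zero hT.at₂ hT.const hTτ hf'0 hO2 hb2
  obtain ⟨r1, r2⟩ := fdB 𝒢 𝒲 hp hτ hs hsR hsτ hR hv1 hv2 D₂ hD₂ hloc₂ (b := 0)
    (by rw [map_zero]; exact 𝒢.red₁.rd_eq_zero l1) (by rw [map_zero]; exact 𝒢.red₂.rd_eq_zero l2)
  exact ⟨hv1, hv2, r1, r2⟩

end Wild

/-- **The Eisenstein step, tame case** (the class is fixed by the inertia group). -/
theorem eis_tame {p : ℕ} (hp : p.Prime) (hp₂ : T.R₂.O.valuation (p : F) < 1) {Rat : Subfield F}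
    (scale₁ : ∀ u ∈ Rat, u ≠ 0 → ∃ n : ℤ, T.R₁.O.valuation (u * ((p : F) ^ n)⁻¹) = 1)
    (scale₂ : ∀ u ∈ Rat, u ≠ 0 → ∃ n : ℤ, T.R₂.O.valuation (u * ((p : F) ^ n)⁻¹) = 1)
    {s : F} (hs : SlopeFn 𝒢 p s) {Tx : F →* F} {d : ℕ} (hT : HeckeOp T Tx d)
    {f : F} (hf : f ∈ Rat) (hf0 : f ≠ 0)
    (D₂ : Divisor K F) (hD₂ : ∀ P : Place K F, P.ord (Tx f * (f ^ d)⁻¹) = p * D₂ P)
    (hloc₂ : LocEqs 𝒢 Rat D₂) :
    T.R₁.O.valuation (Tx f * (f ^ d)⁻¹) = 1 ∧ T.R₂.O.valuation (Tx f * (f ^ d)⁻¹) = 1 ∧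
      (∀ Q : Place k Fb, (p : ℤ) ∣ Q.ord (rd₁ T (Tx f * (f ^ d)⁻¹))) ∧
      ∀ Q : Place k Fb, (p : ℤ) ∣ Q.ord (rd₂ T (Tx f * (f ^ d)⁻¹)) := by
  have hpF : (p : F) ≠ 0 := by
    intro h0
    have := hs.val₂
    rw [h0, inv_zero, mul_zero, map_zero] at this
    exact zero_ne_one this
  have hpK : (p : K) ≠ 0 := by
    intro h0
    apply hpF
    rw [← map_natCast (algebraMap K F), h0, map_zero]
  have hz : ∀ j : ℤ, ((p : F) ^ j)⁻¹ = algebraMap K F (((p : K) ^ j)⁻¹) := fun j => by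
    rw [map_inv₀, map_zpow₀, map_natCast]
  have hz0 : ∀ j : ℤ, ((p : K) ^ j)⁻¹ ≠ 0 := fun j => inv_ne_zero (zpow_ne_zero _ hpK)
  obtain ⟨n₁, h1⟩ := scale₁ f hf hf0
  obtain ⟨n₂, h2⟩ := scale₂ f hf hf0
  have hv1 : T.R₁.O.valuation (Tx f * (f ^ d)⁻¹) = 1 := by
    rw [← quot_mul_const hT.const f (hz0 n₁), ← hz]
    exact val_mul_eq_one (hT.at₁.unit _ h1) (val_inv_eq_one (val_pow_eq_one h1 d))
  have hv2 : T.R₂.O.valuation (Tx f * (f ^ d)⁻¹) = 1 := by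
    rw [← quot_mul_const hT.const f (hz0 n₂), ← hz]
    exact val_mul_eq_one (hT.at₂.unit _ h2) (val_inv_eq_one (val_pow_eq_one h2 d))
  obtain ⟨r1, r2⟩ := fd0B 𝒢 hp hp₂ scale₁ scale₂ hs hv1 hv2 D₂ hD₂ hloc₂
  exact ⟨hv1, hv2, r1, r2⟩

end Fermat.Agent.S40
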