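import Fermat.Agent.S40.Geo.Core
import Fermat.Agent.S40.Geo.A
import Fermat.Agent.S40.Geo.GammaH
import Fermat.Agent.HK.Gamma
import Fermat.Agent.S40.HK.E
import Fermat.Agent.S40.HK.Op
import Fermat.Agent.SSP.Mod.Eis
import Fermat.Agent.NP.Mod.Main
import Fermat.Agent.RED.S37.Exist

/-!
# S40 / GEO / B : (GeoB) = (PL_p) at the levels `M' p` with `M'` even
-/

set_option autoImplicit false
set_option linter.unusedSectionVars false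
set_option linter.style.haveILetI false
set_option synthInstance.maxHeartbeats 400000

noncomputable section

open AlgebraicCurve ModularCurve IsLocalRing

namespace Fermat.Agent.S40

open Fermat.Agent.RED hiding GQ Kb
open Fermat.Agent.RED.ES Fermat.Agent.RED.Gauss Fermat.Agent.S24 Fermat.Agent.SS Fermat.Agent.HK
open Fermat.Agent.GAL.HeckeInputs Fermat.Agent.S40.Kill Fermat.Agent.S40.HK Fermat.Agent.GAL
open Fermat.Agent.GAL.PC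

local notation "GQ" => (AlgebraicClosure ℚ ≃ₐ[ℚ] AlgebraicClosure ℚ)
local notation "Qbar" => AlgebraicClosure ℚ

section Leaves

variable {M p : ℕ} [NeZero M] [hp : Fact p.Prime] (hpM : ¬ p ∣ M)
  (A : ValuationSubring Qbar) [CharP (ResidueField A) p] [IsAlgClosed (ResidueField A)]

theorem eisStmtW_B (h49 : 4 ∣ M ∨ 9 ∣ M) (hA : A.LiesOverPrime p) (H' : Subgroup GQ)
    (hH' : H' ≤ A.inertiaSubgroupIn ℚ) {τ : GQ} (hτ : τ ∈ A.inertiaSubgroupIn ℚ)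
    (hcos : ∀ g ∈ A.inertiaSubgroupIn ℚ, ∃ i < p, ∃ h ∈ H', g = τ ^ i * h) {z0 : Qbar}
    (hz : SSP.IsZ0 A p H' τ z0) (ℓ : ℕ) [NeZero ℓ] (hℓ : ℓ.Prime) (hℓM : ¬ ℓ ∣ M * p) :
    EisStmt hpM A H' ℓ := fun _ hf hf0 E hE E₂ hE₂ =>
  SSP.eis_wild_mod hpM A h49 hA H' hH' hτ hcos hz (Tx := TXhom (M * p) ℓ) (d := ℓ + 1)
    (heckeOp_TX hpM _ _ hℓ hℓM) (gal_smul_TXhom hℓ hℓM) hf hf0 E hE E₂ hE₂

theorem eisStmtT_B (h49 : 4 ∣ M ∨ 9 ∣ M) (hA : A.LiesOverPrime p) (ℓ : ℕ) [NeZero ℓ]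
    (hℓ : ℓ.Prime) (hℓM : ¬ ℓ ∣ M * p) : EisStmt hpM A (A.inertiaSubgroupIn ℚ) ℓ :=
  fun _ hf hf0 _ _ E₂ hE₂ =>
  SSP.eis_tame_mod hpM A h49 hA (Tx := TXhom (M * p) ℓ) (d := ℓ + 1)
    (heckeOp_TX hpM _ _ hℓ hℓM) (gal_smul_TXhom hℓ hℓM) hf hf0 E₂ hE₂

end Leaves

theorem exists_gammaDownKill_B {M' p : ℕ} [NeZero M'] [hp : Fact p.Prime] (h2 : 2 ∣ M')
    (hpM : ¬ p ∣ M' * 4) (A : ValuationSubring Qbar) [CharP (ResidueField A) p]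
    [IsAlgClosed (ResidueField A)] (hA : A.LiesOverPrime p) (h : ReductionInputsModL A (M' * 4))
    (S : Set ℕ) (hS : ∀ ℓ : ℕ, ℓ.Prime → ℓ ∉ S → ¬ ℓ ∣ M' * 4 * p) (t₀ : MvPolynomial ℕ ℤ)
    (ht₀ : MvPolynomial.aeval (heckeT M' S) t₀ = 0) :
    ∃ Γ' : Module.End ℤ (JZero (M' * 4)), GammaDown A p 4 Γ' ∧
      ∀ f' : MvPolynomial ℕ ℤ →+* Module.End ℤ (JZero (M' * 4)),
        (∀ ℓ, f' (MvPolynomial.X ℓ) = Kill.TJ (M' * 4) S ℓ) →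
          ∀ y', reductionModL A (M' * 4) (f' t₀ (Γ' y')) = 0 := by
  have h49 : 4 ∣ M' * 4 ∨ 9 ∣ M' * 4 := Or.inl (Dvd.intro_left M' rfl)
  refine ⟨(HK.gamJ (heckeBetaBar Qbar M' 4)).toIntLinearMap, ?_, ?_⟩
  · intro w y hR
    exact HK.Rel.gamma_beta hA hpM h49 h (HK.finrankAlong_beta_of_eq_four rfl h2)
      (heckeInputsAlong' M' 4) hR
  · intro f' hf' y'
    exact red_poly_gam_eq_zero hp.out hpM A hA h rfl (heckeBetaBar Qbar M' 4)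
      (fun x => coe_heckeBetaBar _ _ x) S (fun ℓ hℓ hℓS hd => hS ℓ hℓ hℓS (hd.mul_right p))
      f' hf' t₀ ht₀ y'

/-- an eigenclass at the level `M' p` which is fixed by `H'`, for which the Eisenstein step holds, has `ActsChi`. -/
theorem actsChi_of_eisStmt {M' p : ℕ} [NeZero M'] [NeZero p] (hp : p.Prime) (hp2 : p ≠ 2)
    (h2 : 2 ∣ M') {S : Finset ℕ} {a : ℕ → ℤ} (hsys : GoodSys M' p S a)
    (A : ValuationSubring Qbar) (hA : A.LiesOverPrime p) [Fact p.Prime]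
    [CharP (ResidueField A) p] [IsAlgClosed (ResidueField A)] (hpM : ¬ p ∣ M' * 4)
    {y : JZero (M' * p)} (hy : y ∈ eigA (M' * p) p (↑S : Set ℕ) a) (H' : Subgroup GQ)
    (hH : ∀ τ ∈ H', τ • y = y)
    (hE : ∀ (ℓ : ℕ) [NeZero ℓ], ℓ.Prime → ¬ ℓ ∣ M' * 4 * p → EisStmt hpM A H' ℓ) :
    ActsChi p A y := by
  have h49 : 4 ∣ M' * 4 ∨ 9 ∣ M' * 4 := Or.inl (Dvd.intro_left M' rfl)
  have hS : ∀ ℓ : ℕ, ℓ.Prime → ℓ ∉ (↑S : Set ℕ) → ¬ ℓ ∣ M' * 4 * p := by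
    intro ℓ hℓ hℓS hd
    apply hℓS
    rcases (Nat.Prime.dvd_mul hℓ).mp hd with h | h
    · rcases (Nat.Prime.dvd_mul hℓ).mp h with h | h
      · exact hsys.lvl ℓ hℓ (h.mul_right _)
      · have h4 : ℓ ∣ 2 ^ 2 := by simpa using h
        have h5 : ℓ ∣ 2 := hℓ.dvd_of_dvd_pow h4
        exact hsys.lvl ℓ hℓ ((h5.trans h2).mul_right _)
    · exact hsys.lvl ℓ hℓ (h.mul_left _)
  have h : ReductionInputsModL A (M' * 4) :=
    reductionInputsModL_of_genus_le (M' * 4) A hA hpM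
      (gen_of_rhRel (M' * 4)
        (fun _ _ _ _ _ _ _ _ _ _ _ _ h1 h2 => Fermat.Agent.RR.rhRel h1 h2) h49 _ hpM)
  obtain ⟨t₀, ht₀, hθ⟩ := hsys.old
  obtain ⟨ℓ₀, hℓ₀, hℓ₀S, -, hne⟩ := hsys.ne 1 one_pos
  obtain ⟨Γ', hΓ', hkill⟩ := exists_gammaDownKill_B h2 hpM A hA h (↑S : Set ℕ) hS t₀ ht₀
  have hd : ¬ p ∣ 4 := by
    intro hd
    have h4 : p ∣ 2 ^ 2 := by simpa using hd
    exact hp2 ((Nat.prime_dvd_prime_iff_eq hp Nat.prime_two).1 (hp.dvd_of_dvd_pow h4))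
  have htor : IsToric (TT hpM A) p (RIB.jPull (Bp M' 4 p) y) :=
    isToric_of_eigen hpM A hA h49 h (↑S : Set ℕ) hS a (jPull_Bp_mem_eigA hS hy) hℓ₀ hℓ₀S hne
      t₀ hθ (gammaUp_GamE hpM h2 A) hΓ' (GamE_jPull_four M' p h2 y) hd hkill H'
      (fun τ hτ => by rw [← jPull_Bp_smul, hH τ hτ])
      (fun _ => hE ℓ₀ hℓ₀ (hS ℓ₀ hℓ₀ hℓ₀S))
  have hynew := isPNew_of_mem_eigA hp hsys hy
  exact actsChi_of_map A (RIB.jPull (Bp M' 4 p)) (jPull_Bp_smul M' 4 p)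
    (fun x hx => jPull_Bp_eq_zero_of_torsion M' 4 p (Or.inl rfl) p hp.ne_zero x hx) hynew.1
    (actsChi_of_toric hpM (NP.newP hpM h49) A hA (isPNew_jPull_Bp M' 4 p hpM hynew) htor)

/-- **(GeoB)** = (PL_p), `M'` even. -/
theorem geoB_even {M' p : ℕ} [NeZero M'] [NeZero p] (hp : p.Prime) (hp2 : p ≠ 2)
    (hpM' : ¬ p ∣ M') (h2 : 2 ∣ M') : GeoB M' p := by
  intro S a hsys A hA x hx t ht ht0 htχ hext hLR
  haveI : Fact p.Prime := ⟨hp⟩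
  haveI : IsAlgClosed (ResidueField A) := GalEq.isAlgClosed_residueField A
  haveI : CharP (ResidueField A) p := GalEq.charP_residueField hp hA
  have hpM : ¬ p ∣ M' * 4 := by
    intro hd
    rcases (Nat.Prime.dvd_mul hp).mp hd with h | h
    · exact hpM' h
    · have h4 : p ∣ 2 ^ 2 := by simpa using h
      exact hp2 ((Nat.prime_dvd_prime_iff_eq hp Nat.prime_two).1 (hp.dvd_of_dvd_pow h4))
  have h49 : 4 ∣ M' * 4 ∨ 9 ∣ M' * 4 := Or.inl (Dvd.intro_left M' rfl)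
  by_cases hW : ∃ σ ∈ A.inertiaSubgroupIn ℚ, cycloChar p σ = 1 ∧ σ • x ≠ x
  · -- the wild case
    obtain ⟨σ, hσ, hχ, hσx⟩ := hW
    obtain ⟨hcos, -⟩ := wild_cosets hp A ht.1 ht0 htχ hext hσ hχ hσx
    obtain ⟨z0, hz0⟩ := exists_z0_of_littleRam hp hp2 A hA ht.1 ht0 htχ hext hLR hσ hχ hσx
    exact actsChi_of_eisStmt hp hp2 h2 hsys A hA hpM hx (stabI A x)
      (fun τ hτ => (mem_stabI.1 hτ).2)
      (fun ℓ _ hℓ hℓM => eisStmtW_B hpM A h49 hA (stabI A x) (stabI_le A x) hσ hcos hz0 ℓ hℓ hℓM)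
  · -- the tame case
    have htame : ∀ σ ∈ A.inertiaSubgroupIn ℚ, cycloChar p σ = 1 → σ • x = x := by
      intro σ hσ hχ
      by_contra hne
      exact hW ⟨σ, hσ, hχ, hne⟩
    obtain ⟨n, x₀, hx₀, hfix⟩ := exists_split hp hp2 A hA ht.1 ht0 htχ hext htame
    have hx₀m : x₀ ∈ eigA (M' * p) p (↑S : Set ℕ) a := by
      have : x₀ = x - n • t := by rw [hx₀, add_sub_cancel_right]
      rw [this]
      exact sub_mem hx (nsmul_mem ht n)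
    rw [hx₀]
    refine actsChi_add ?_ (actsChi_nsmul htχ n)
    exact actsChi_of_eisStmt hp hp2 h2 hsys A hA hpM hx₀m (A.inertiaSubgroupIn ℚ) hfix
      (fun ℓ _ hℓ hℓM => eisStmtT_B hpM A h49 hA ℓ hℓ hℓM)

end Fermat.Agent.S40
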