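import Fermat.Agent.S40.Geo.A
import Fermat.Agent.NP.Mod.Main

/-!
# S40 / GEO : the geometric statements consumed by TOP-40 (`S40/Top.lean`)

* `newPAll` : (NEW-p) = `S33.NewP` at all rigid levels = helper4's `NP.newP`.
* `geoA`    : proved from `newPAll` (`S40/Geo/A.lean`).
* `geoB`    : (PL_p).  OWNER of the assembly: helper87 (SSP + HK + Kill + NewP).  The last step
  "`p`-new + pull-back toric ⟹ `ActsChi`" is `actsChi_of_toric` + `actsChi_of_map` + `exists_pull_new` (`S40/Geo/A.lean`, `Pull.lean`).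
-/

set_option autoImplicit false

namespace Fermat.Agent.S40

/-- **(NEW-p)** -/
theorem newPAll {p : ℕ} (_hp : p.Prime) (_hp2 : p ≠ 2) : NewPAll p :=
  fun _ _ _ hpM h49 => NP.newP hpM h49

/-- **(GeoA)** -/
theorem geoA {M' p : ℕ} [NeZero M'] [NeZero p] (hp : p.Prime) (hp2 : p ≠ 2) (hpM' : ¬ p ∣ M') :
    GeoA M' p :=
  geoA_of_newP hp hpM' (newPAll hp hp2)

/-- **(GeoB)** = (PL_p) -/
theorem geoB {M' p : ℕ} [NeZero M'] [NeZero p] (hp : p.Prime) (hp2 : p ≠ 2) (hpM' : ¬ p ∣ M') :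
    GeoB M' p := by
  sorry

end Fermat.Agent.S40
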