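import Fermat.Agent.S40.Geo.Tri
import Fermat.Agent.S40.Kill.Eigen
import Fermat.Agent.S40.HK.Formal
import Fermat.Agent.S40.New
import Fermat.Agent.RIB.Key.H90
import Fermat.Agent.SSP.Basic

/-!
# S40 / GEO : the core of (PL_p) at a rigid level `M`, `p ∤ M`   (helper38 #2155 (A1)-(A5))

* `formalAt` : the interface `FormalAt` from helper52's `S40/HK/Formal.lean`;
* `EisStmt hpM A H' ℓ` : the statement of the Eisenstein step for the functions fixed by `H'` (proved in `SSP/Mod/Eis.lean` from `S40.eis_wild`,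
  `S40.eis_tame`);
* `start` : (A1) `Tri (T_ℓ y - (ℓ + 1) y) y₁ y₂` for a class `y` fixed by `H'`;
* `isToric_of_eigen` : (A2)-(A5) an eigenclass `y` fixed by `H'`, with `Γ y = c y`, is toric.
-/

set_option autoImplicit false
set_option linter.unusedSectionVars false
set_option linter.style.haveILetI false
set_option synthInstance.maxHeartbeats 400000

noncomputable section

open AlgebraicCurve ModularCurve IsLocalRing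

namespace Fermat.Agent.S40

open Fermat.Agent.RED hiding GQ Kb
open Fermat.Agent.RED.ES Fermat.Agent.RED.Gauss Fermat.Agent.S24 Fermat.Agent.SS Fermat.Agent.HK
open Fermat.Agent.GAL.HeckeInputs Fermat.Agent.S40.Kill Fermat.Agent.S40.HK

local notation "GQ" => (AlgebraicClosure ℚ ≃ₐ[ℚ] AlgebraicClosure ℚ)

variable {M p : ℕ} [NeZero M] [hp : Fact p.Prime] (hpM : ¬ p ∣ M) (A : ValuationSubring Kb)
  [CharP (ResidueField A) p] [IsAlgClosed (ResidueField A)]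

theorem isPrimitiveRoot_zetaA' (m : ℕ) [NeZero m] : IsPrimitiveRoot (zetaA A m) m :=
  IsPrimitiveRoot.of_map_of_injective (isPrimitiveRoot_zetaA A m)
    (Units.map_injective (f := (A.subtype : A →* Kb)) A.subtype_injective)

/-- the interface `FormalAt` holds. -/
theorem formalAt (ℓ : ℕ) [NeZero ℓ] (hℓ : ℓ.Prime) (hℓM : ¬ ℓ ∣ M * p) : FormalAt hpM A ℓ := by
  intro f _ _
  obtain ⟨h₁, e₁⟩ := TX_mem_R₁ hpM (residue A) residue_surjective hℓ hℓM (zetaA A ℓ)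
    (isPrimitiveRoot_zetaA' A ℓ) f.2.1
  obtain ⟨h₂, e₂⟩ := TX_mem_R₂ hpM (residue A) residue_surjective hℓ hℓM (zetaA A ℓ)
    (isPrimitiveRoot_zetaA' A ℓ) f.2.2
  exact ⟨⟨TX (M * p) ℓ f, h₁, h₂⟩, rfl, e₁, e₂⟩

/-- **The statement of the Eisenstein step** for the functions fixed by `H'`. -/
def EisStmt (H' : Subgroup GQ) (ℓ : ℕ) [NeZero ℓ] : Prop :=
  ∀ (f : FN (M * p)), (∀ σ ∈ H', gal (M * p) σ • f = f) → f ≠ 0 →
    ∀ E : Divisor Kb (FN (M * p)), (∀ P : Place Kb (FN (M * p)), P.ord f = p * E P) →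
    ∀ E₂ : Divisor Kb (FN (M * p)),
      (∀ P : Place Kb (FN (M * p)), P.ord (TX (M * p) ℓ f * (f ^ (ℓ + 1))⁻¹) = p * E₂ P) →
    (TT hpM A).R₁.O.valuation (TX (M * p) ℓ f * (f ^ (ℓ + 1))⁻¹) = 1 ∧
    (TT hpM A).R₂.O.valuation (TX (M * p) ℓ f * (f ^ (ℓ + 1))⁻¹) = 1 ∧
    (∀ Q : Place (ResidueField A) (Cusp.Fb (ResidueField A) M),
      (p : ℤ) ∣ Q.ord (SSP.rd₁ (TT hpM A) (TX (M * p) ℓ f * (f ^ (ℓ + 1))⁻¹))) ∧
    ∀ Q : Place (ResidueField A) (Cusp.Fb (ResidueField A) M),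
      (p : ℤ) ∣ Q.ord (SSP.rd₂ (TT hpM A) (TX (M * p) ℓ f * (f ^ (ℓ + 1))⁻¹))

variable (hA : A.LiesOverPrime p) (h49 : 4 ∣ M ∨ 9 ∣ M) (h : ReductionInputsModL A M)

theorem red_ne_zero_of_val {K F k Fb : Type*} [Field K] [Field F] [Algebra K F] [Field k]
    [Field Fb] [Algebra k Fb] (R : RedData K F k Fb) {f : F} (hf : R.O.valuation f = 1)
    (hm : f ∈ R.O) : R.red ⟨f, hm⟩ ≠ 0 :=
  (R.red_ne_zero_iff _).2 ((ValuationSubring.valuation_eq_one_iff R.O ⟨f, hm⟩).2 hf)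

section Scal

variable {X : Type*} [AddCommGroup X]

theorem scal_sub (y Ty : X) (a : ℤ) (ℓ : ℕ) (h : Ty = a • y) :
    Ty - (ℓ + 1) • y = (a - ((ℓ : ℤ) + 1)) • y := by
  rw [h, sub_smul]
  congr 1
  rw [← natCast_zsmul]
  push_cast
  rfl

theorem scal_comp (F G : Module.End ℤ X) (y : X) (n₁ θ : ℤ) (d : ℕ) (hG : G y = d • y)
    (hF : F y = θ • y) : F (G (n₁ • y)) = (n₁ * d * θ) • y := by
  rw [map_zsmul, hG, map_zsmul, map_nsmul, hF, ← natCast_zsmul, smul_smul, smul_smul]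

theorem exists_zsmul_zsmul_eq {p : ℕ} (hp : p.Prime) {n : ℤ} (hn : ¬ (p : ℤ) ∣ n) :
    ∃ v : ℤ, ∀ x : X, p • x = 0 → v • n • x = x := by
  obtain ⟨u, v, huv⟩ := (Prime.coprime_iff_not_dvd (Nat.prime_iff_prime_int.1 hp)).2 hn
  refine ⟨v, fun x hx => ?_⟩
  have hpx : (p : ℤ) • x = 0 := by rw [natCast_zsmul]; exact hx
  have : (u * (p : ℤ) + v * n) • x = v • n • x := by
    rw [add_smul, mul_smul, hpx, smul_zero, zero_add, mul_smul]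
  rw [← this, huv, one_smul]

end Scal

include hA h49 h in
/-- **(A1)** -/
theorem start (H' : Subgroup GQ) (ℓ : Nat.Primes) (hℓ : ¬ (ℓ : ℕ) ∣ M * p)
    (hE : haveI : NeZero (ℓ : ℕ) := ⟨ℓ.2.ne_zero⟩; EisStmt hpM A H' (ℓ : ℕ))
    (y : JZero (M * p)) (hy : p • y = 0) (hH : ∀ τ ∈ H', τ • y = y) :
    ∃ y₁ y₂ : JZero M,
      TriM hpM A (heckeOperatorBar (M * p) ℓ y - ((ℓ : ℕ) + 1) • y) y₁ y₂ := by
  haveI : NeZero (ℓ : ℕ) := ⟨ℓ.2.ne_zero⟩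
  obtain ⟨D, f, rfl, hf, hfix, -⟩ := RIB.Key.exists_fixed_isDiv (M * p) H' hp.out.ne_zero y hy hH
  obtain ⟨D', hD', hD'f⟩ := hecke_mk_isDiv (M * p) ℓ D hf.1 hf.2
  set f₂ : FN (M * p) := TX (M * p) ℓ f * (f ^ ((ℓ : ℕ) + 1))⁻¹ with hf₂
  have hTf0 : TX (M * p) ℓ f ≠ 0 := TX_ne_zero ℓ.2 hℓ hf.1
  have hord : ∀ P : Place Kb (FN (M * p)), P.ord f₂ =
      p * ((D' : Divisor Kb (FN (M * p))) - ((ℓ : ℕ) + 1) • (D : Divisor Kb (FN (M * p)))) P := by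
    intro P
    rw [hf₂, P.ord_mul hTf0 (inv_ne_zero (pow_ne_zero _ hf.1)), Place.ord_inv, Place.ord_pow,
      Finsupp.sub_apply, Finsupp.smul_apply, mul_sub, hD'f P, ← hf.2 P, nsmul_eq_mul]
    push_cast
    rw [TX_def]
    ring
  obtain ⟨v1, v2, d1, d2⟩ := hE f hfix hf.1 D (fun P => (hf.2 P).symm) _ hord
  have m1 : f₂ ∈ (TT hpM A).R₁.O := mem_of_val_le v1.le
  have m2 : f₂ ∈ (TT hpM A).R₂.O := mem_of_val_le v2.le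
  rw [SSP.rd₁, rd_of_mem m1] at d1
  rw [SSP.rd₂, rd_of_mem m2] at d2
  obtain ⟨y₁, hy₁⟩ := HK.exists_rel hA hpM h49 h hp.out.ne_zero
    (red_ne_zero_of_val (TT hpM A).R₁ v1 m1) d1
  obtain ⟨y₂, hy₂⟩ := HK.exists_rel hA hpM h49 h hp.out.ne_zero
    (red_ne_zero_of_val (TT hpM A).R₂ v2 m2) d2
  refine ⟨y₁, y₂, D' - ((ℓ : ℕ) + 1) • D, ⟨f₂, m1, m2⟩, ?_, fun v => (hord v).symm, hy₁, hy₂⟩
  rw [TorsES.mk_sub', TorsES.mk_nsmul', hD']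

include hA h49 h in
/-- **(A2)-(A5)** : an eigenclass which is fixed by `H'` and satisfies `Γ y = c y` is toric. -/
theorem isToric_of_eigen (S : Set ℕ) (hS : ∀ ℓ : ℕ, ℓ.Prime → ℓ ∉ S → ¬ ℓ ∣ M * p) (a : ℕ → ℤ)
    {y : JZero (M * p)} (hy : y ∈ eigA (M * p) p S a)
    {ℓ₀ : ℕ} (hℓ₀ : ℓ₀.Prime) (hℓ₀S : ℓ₀ ∉ S) (hne : ¬ (p : ℤ) ∣ a ℓ₀ - ((ℓ₀ : ℤ) + 1))
    (t₀ : MvPolynomial ℕ ℤ) (hθ : ¬ (p : ℤ) ∣ MvPolynomial.aeval (cutS S a) t₀)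
    {c : ℕ} [NeZero c] {Γ : Module.End ℤ (JZero (M * p))} {Γ' : Module.End ℤ (JZero M)}
    (hΓ : GammaUp hpM A c Γ) (hΓ' : GammaDown A p c Γ') {d : ℕ} (hΓy : Γ y = d • y)
    (hd : ¬ p ∣ d)
    (hkill : ∀ f' : MvPolynomial ℕ ℤ →+* Module.End ℤ (JZero M),
      (∀ ℓ, f' (MvPolynomial.X ℓ) = TJ M S ℓ) → ∀ y' : JZero M,
        reductionModL A M (f' t₀ (Γ' y')) = 0)
    (H' : Subgroup GQ) (hH : ∀ τ ∈ H', τ • y = y)
    (hE : ∀ _ : NeZero ℓ₀, EisStmt hpM A H' ℓ₀) : IsToric (TT hpM A) p y := by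
  have hSM : ∀ ℓ : ℕ, ℓ.Prime → ℓ ∉ S → ¬ ℓ ∣ M := fun ℓ hℓ hℓS hd =>
    hS ℓ hℓ hℓS (hd.mul_right p)
  obtain ⟨f, hf⟩ := exists_polyJ (M * p) S
  obtain ⟨f', hf'⟩ := exists_polyJ M S
  obtain ⟨y₁, y₂, h0⟩ := start hpM A hA h49 h H' ⟨ℓ₀, hℓ₀⟩ (hS ℓ₀ hℓ₀ hℓ₀S) (hE _) y hy.1 hH
  have h1 := compat_polyT hpM A hA h49 h S hSM
    (fun ℓ hℓ hℓS _ => formalAt hpM A ℓ hℓ (hS ℓ hℓ hℓS)) f hf f' hf' t₀ _ _ _
    (compat_gamma hpM A hΓ hΓ' _ _ _ h0)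
  -- the scalar
  set n₁ : ℤ := a ℓ₀ - ((ℓ₀ : ℤ) + 1) with hn₁
  set θ : ℤ := MvPolynomial.aeval (cutS S a) t₀ with hθd
  have e0 : heckeOperatorBar (M * p) ⟨ℓ₀, hℓ₀⟩ y - (ℓ₀ + 1) • y = n₁ • y :=
    scal_sub y _ (a ℓ₀) ℓ₀ (hy.2 ⟨ℓ₀, hℓ₀⟩ hℓ₀S)
  have hfy : ∀ t : MvPolynomial ℕ ℤ, f t y = MvPolynomial.aeval (cutS S a) t • y := by
    refine poly_apply_abs f (cutS S a) y fun ℓ => ?_
    rw [hf]
    by_cases hℓ : ℓ.Prime ∧ ℓ ∉ S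
    · rw [TJ_of_good hℓ.1 hℓ.2, cutS_of_good hℓ.1 hℓ.2]
      exact hy.2 ⟨ℓ, hℓ.1⟩ hℓ.2
    · rw [TJ_of_bad hℓ, cutS_of_bad hℓ, LinearMap.zero_apply]
      exact (zero_smul ℤ y).symm
  have e1 : f t₀ (Γ (heckeOperatorBar (M * p) ⟨ℓ₀, hℓ₀⟩ y -
      (((⟨ℓ₀, hℓ₀⟩ : Nat.Primes) : ℕ) + 1) • y)) = (n₁ * d * θ) • y :=
    (congrArg (fun z => f t₀ (Γ z)) e0).trans (scal_comp (f t₀) Γ y n₁ θ d hΓy (hfy t₀))
  rw [e1] at h1
  have hpp : Prime (p : ℤ) := Nat.prime_iff_prime_int.1 hp.out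
  have hn : ¬ (p : ℤ) ∣ n₁ * d * θ := by
    intro hdvd
    rcases hpp.dvd_or_dvd hdvd with h2 | h2
    · rcases hpp.dvd_or_dvd h2 with h3 | h3
      · exact hne h3
      · exact hd (Int.natCast_dvd_natCast.1 h3)
    · exact hθ h2
  obtain ⟨v, hv⟩ := exists_zsmul_zsmul_eq (X := JZero (M * p)) hp.out hn
  have h2 := (triM_isAddRel hpM A hA).zsmul h1 v
  rw [hv y hy.1] at h2
  refine h2.isToric hpM A hA ?_ ?_
  · rw [map_zsmul, hkill f' hf', smul_zero]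
  · rw [map_zsmul, hkill f' hf', smul_zero]

end Fermat.Agent.S40
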