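import Fermat.Agent.S40.Geo.Core
import Fermat.Agent.SSP.Mod.Eis
import Fermat.Agent.S40.HK.Op

/-!
# S40 / GEO : `EisStmt` (the Eisenstein step at the level `M p`), wild and tame cases   [WP-E]
-/

set_option autoImplicit false
set_option linter.unusedSectionVars false
set_option linter.style.haveILetI false
set_option synthInstance.maxHeartbeats 400000

noncomputable section

open AlgebraicCurve ModularCurve IsLocalRing

namespace Fermat.Agent.S40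

open Fermat.Agent.RED hiding GQ Kb
open Fermat.Agent.S24 Fermat.Agent.SS Fermat.Agent.S40.HK

local notation "GQ" => (AlgebraicClosure ℚ ≃ₐ[ℚ] AlgebraicClosure ℚ)

variable {M p : ℕ} [NeZero M] [hp : Fact p.Prime] (hpM : ¬ p ∣ M) (A : ValuationSubring Kb)
  [CharP (ResidueField A) p] [IsAlgClosed (ResidueField A)]

/-- the Eisenstein step, wild case -/
theorem eisStmt_wild (h49 : 4 ∣ M ∨ 9 ∣ M) (hA : A.LiesOverPrime p) (H' : Subgroup GQ)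
    (hH' : H' ≤ A.inertiaSubgroupIn ℚ) {τ : GQ} (hτ : τ ∈ A.inertiaSubgroupIn ℚ)
    (hcos : ∀ g ∈ A.inertiaSubgroupIn ℚ, ∃ i < p, ∃ h ∈ H', g = τ ^ i * h) {z0 : Kb}
    (hz : SSP.IsZ0 A p H' τ z0) (ℓ : ℕ) [NeZero ℓ] (hℓ : ℓ.Prime) (hℓM : ¬ ℓ ∣ M * p) :
    EisStmt hpM A H' ℓ := fun _ hf hf0 E hE E₂ hE₂ =>
  SSP.eis_wild_mod hpM A h49 hA H' hH' hτ hcos hz (Tx := TXhom (M * p) ℓ) (d := ℓ + 1)
    (heckeOp_TX hpM _ _ hℓ hℓM) (gal_smul_TXhom hℓ hℓM) hf hf0 E hE E₂ hE₂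

/-- the Eisenstein step, tame case -/
theorem eisStmt_tame (h49 : 4 ∣ M ∨ 9 ∣ M) (hA : A.LiesOverPrime p) (ℓ : ℕ) [NeZero ℓ]
    (hℓ : ℓ.Prime) (hℓM : ¬ ℓ ∣ M * p) : EisStmt hpM A (A.inertiaSubgroupIn ℚ) ℓ :=
  fun _ hf hf0 _ _ E₂ hE₂ =>
  SSP.eis_tame_mod hpM A h49 hA (Tx := TXhom (M * p) ℓ) (d := ℓ + 1)
    (heckeOp_TX hpM _ _ hℓ hℓM) (gal_smul_TXhom hℓ hℓM) hf hf0 E₂ hE₂

end Fermat.Agent.S40
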