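import Fermat.Agent.S40.Geo.Tri
import Fermat.Agent.S40.Kill.Eigen
import Fermat.Agent.HK.Gamma

/-!
# S40 / GEO / [GAMMA] at the good level `N * c` : the interface `GammaDown` and step (A4)   (owner: helper69; plan: helper38 #2155)

* `GamDown N c : Module.End ℤ (JZero (N * c))` is `B^* B_*`, `B = heckeBetaBar Kb N c`.
* `gammaDown_beta` : `GammaDown A n c (GamDown N c)`  (from `HK.Rel.gamma_beta`).
* `poly_Bstar` : polynomials in the `T_ℓ` (`ℓ ∉ S`) commute with `B^*`.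
* `red_poly_gamDown` : **(A4)** `red (t₀(T) Γ' y) = 0` for the old-killer `t₀` of the level `N`  (`c = aux p`).
-/

set_option autoImplicit false
set_option linter.unusedSectionVars false
set_option synthInstance.maxHeartbeats 400000

noncomputable section

open AlgebraicCurve ModularCurve IsLocalRing

namespace Fermat.Agent.S40

open Fermat.Agent.RED hiding GQ Kb
open Fermat.Agent.S24 Fermat.Agent.SS Fermat.Agent.HK
open Fermat.Agent.GAL.PC Fermat.Agent.S40.Kill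

variable (N c : ℕ) [NeZero N] [NeZero c]

/-- `Γ' = B^* B_*` at the level `N * c`. -/
def GamDown : Module.End ℤ (JZero (N * c)) := (HK.gamJ (heckeBetaBar Kb N c)).toIntLinearMap

theorem GamDown_apply (hB : HeckeInputsAlong Kb N c) (y : JZero (N * c)) :
    GamDown N c y = Bstar N c hB (SS.pushB N c y) := rfl

variable {N c}

/-- **Interface [GAMMA]**, good level. -/
theorem gammaDown_beta {p : ℕ} [Fact p.Prime] {A : ValuationSubring Kb} (hA : A.LiesOverPrime p)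
    (hpM : ¬ p ∣ N * c) (h49 : 4 ∣ N * c ∨ 9 ∣ N * c) (h : ReductionInputsModL A (N * c))
    (hdeg : finrankAlong Kb (heckeBetaBar Kb N c) = c) (n : ℕ) :
    GammaDown A n c (GamDown N c) := fun _ _ hR =>
  hR.gamma_beta hA hpM h49 h hdeg (heckeInputsAlong' N c)

/-- polynomials in the `T_ℓ`, `ℓ ∉ S`, commute with every homomorphism which commutes with the `T_ℓ`. -/
theorem poly_comm_of_hecke {L L' : ℕ} [NeZero L] [NeZero L'] (B : JZero L →+ JZero L') (S : Set ℕ)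
    (hB : ∀ ℓ : Nat.Primes, (ℓ : ℕ) ∉ S → ∀ x, B (heckeOperatorBar L ℓ x) = heckeOperatorBar L' ℓ (B x))
    (f : MvPolynomial ℕ ℤ →+* Module.End ℤ (JZero L)) (hf : ∀ ℓ, f (MvPolynomial.X ℓ) = TJ L S ℓ)
    (f' : MvPolynomial ℕ ℤ →+* Module.End ℤ (JZero L'))
    (hf' : ∀ ℓ, f' (MvPolynomial.X ℓ) = TJ L' S ℓ) (t : MvPolynomial ℕ ℤ) (x : JZero L) :
    f' t (B x) = B (f t x) := by
  induction t using MvPolynomial.induction_on generalizing x with
  | C a =>
    rw [eq_intCast (MvPolynomial.C : ℤ →+* MvPolynomial ℕ ℤ) a, map_intCast, map_intCast,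
      Module.End.intCast_apply, Module.End.intCast_apply, map_zsmul]
  | add P Q hP hQ => rw [map_add, map_add, LinearMap.add_apply, LinearMap.add_apply, map_add, hP, hQ]
  | mul_X P ℓ hP =>
    rw [map_mul, map_mul, Module.End.mul_apply, Module.End.mul_apply, hf, hf']
    by_cases hℓ : ℓ.Prime ∧ ℓ ∉ S
    · rw [TJ_of_good hℓ.1 hℓ.2, TJ_of_good hℓ.1 hℓ.2]
      exact (congrArg (f' P) (hB ⟨ℓ, hℓ.1⟩ hℓ.2 x).symm).trans (hP _)
    · have e1 : TJ L' S ℓ (B x) = 0 := by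
        have : TJ L' S ℓ = 0 := TJ_of_bad hℓ
        exact congrArg (fun T : Module.End ℤ (JZero L') => T (B x)) this
      have e2 : TJ L S ℓ x = 0 := by
        have : TJ L S ℓ = 0 := TJ_of_bad hℓ
        exact congrArg (fun T : Module.End ℤ (JZero L) => T x) this
      have e3 : f' P (TJ L' S ℓ (B x)) = 0 := (congrArg (f' P) e1).trans (map_zero _)
      have e4 : B (f P (TJ L S ℓ x)) = 0 :=
        (congrArg (fun z => B (f P z)) e2).trans ((congrArg B (map_zero (f P))).trans (map_zero B))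
      exact e3.trans e4.symm

/-- polynomials in the `T_ℓ`, `ℓ ∉ S`, commute with `B^*`. -/
theorem poly_Bstar (hB : HeckeInputsAlong Kb N c) (S : Set ℕ)
    (hS : ∀ ℓ : ℕ, ℓ.Prime → ℓ ∉ S → ¬ ℓ ∣ N * c)
    (f : MvPolynomial ℕ ℤ →+* Module.End ℤ (JZero N)) (hf : ∀ ℓ, f (MvPolynomial.X ℓ) = TJ N S ℓ)
    (f' : MvPolynomial ℕ ℤ →+* Module.End ℤ (JZero (N * c)))
    (hf' : ∀ ℓ, f' (MvPolynomial.X ℓ) = TJ (N * c) S ℓ) (t : MvPolynomial ℕ ℤ) (x : JZero N) :
    f' t (Bstar N c hB x) = Bstar N c hB (f t x) :=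
  poly_comm_of_hecke (Bstar N c hB) S
    (fun ℓ hℓ x => MAZ.Bstar_heckeOperatorBar N c hB ℓ (hS ℓ ℓ.2 hℓ) x) f hf f' hf' t x

/-- **(A4)** the old-killer of the level `N` kills the reduction of `Γ' y`. -/
theorem red_poly_gamDown {p : ℕ} (hp : p.Prime) (hpN : ¬ p ∣ N) (A : ValuationSubring Kb)
    (hA : A.LiesOverPrime p) (S : Set ℕ) (hS : ∀ ℓ : ℕ, ℓ.Prime → ℓ ∉ S → ¬ ℓ ∣ N * aux p)
    (f' : MvPolynomial ℕ ℤ →+* Module.End ℤ (JZero (N * aux p)))
    (hf' : ∀ ℓ, f' (MvPolynomial.X ℓ) = TJ (N * aux p) S ℓ)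
    (t₀ : MvPolynomial ℕ ℤ) (ht₀ : MvPolynomial.aeval (heckeT N S) t₀ = 0)
    (y : JZero (N * aux p)) :
    reductionModL A (N * aux p) (f' t₀ (GamDown N (aux p) y)) = 0 := by
  obtain ⟨f, hf⟩ := exists_polyJ N S
  have e : f' t₀ (GamDown N (aux p) y) = Bstar N (aux p) (heckeInputsAlong' N (aux p))
      (f t₀ (SS.pushB N (aux p) y)) :=
    poly_Bstar (heckeInputsAlong' N (aux p)) S hS f hf f' hf' t₀ _
  rw [e]
  exact redJ_oldKill hp hpN A hA S (fun ℓ hℓ hℓS hd => hS ℓ hℓ hℓS (hd.mul_right _)) f hf t₀ ht₀ _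

end Fermat.Agent.S40
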