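import Fermat.Agent.S40.Geo.Pull
import Fermat.Agent.RIB.Deg.Fun
import Fermat.Agent.S36.Kum.Level

/-!
# S40 / GEO / [GAMMA] at the level `M' * c * p` : (G3) + level casts   (owner: helper81; plan: helper38 #2155)

`Bp M' c p : F_{M' p} → F_{M' c p}`, `T ↦ T ^ c` (`= GAL.HeckeComm.betaUp`, no cast of levels is visible).

* `GamX u := Bp (N_{Bp} u)` on functions, `GamJ := Bp^* ∘ Bp_*` on `J₀(M' c p)`.
* `swAlg_Bp`, `normAlong_Bp_swAlg`, `swAlg_GamX` : everything commutes with the Atkin-Lehner swap `w_p`.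
* `NormFormulaB φ c` : (G1) `(N_φ u)(T ^ c) = ∏_{b < c} u(ζ^b T)`;  `emb₁_GamX`, `emb₂_GamX` : the same formula for the two expansions
  of `GamX u` at the level `M' c p`.
* `GamJ_mk` : `m D = div f ⟹ GamJ [D] = [D']`, `m D' = div (GamX f)`.
* `GamJ_jPull` : `GamJ (Bp^* x) = deg(Bp) • Bp^* x`.
* `jPull_Bp_*` : the explicit form of `exists_pull_new` for `B := RIB.jPull (Bp M' c p)`.
-/

set_option autoImplicit false
set_option linter.style.haveILetI false

noncomputable section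

open AlgebraicCurve ModularCurve CongruenceSubgroup

namespace Fermat.Agent.S40

open Fermat.Agent.GAL Fermat.Agent.GAL.PC Fermat.Agent.SS Fermat.Agent.RED.ES
open Fermat.Agent.RED hiding Kb
open Fermat.Agent.S24 Fermat.Agent.GAL.HeckeComm Fermat.Agent.RIB

local notation "Qbar" => AlgebraicClosure ℚ
local notation "GQ" => (AlgebraicClosure ℚ ≃ₐ[ℚ] AlgebraicClosure ℚ)

/-! ### abstract lemmas -/

section Abs

variable {K F F' : Type*} [Field K] [Field F] [Field F'] [Algebra K F] [Algebra K F']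

/-- the norm commutes with a pair of compatible automorphisms. -/
theorem normAlong_equiv_equiv (ψ : F →ₐ[K] F') (e₁ : F ≃+* F) (e₂ : F' ≃+* F')
    (h : ∀ a, e₂ (ψ a) = ψ (e₁ a)) (z : F') :
    TorsES.normAlong ψ (e₂ z) = e₁ (TorsES.normAlong ψ z) := by
  unfold TorsES.normAlong
  have := @Algebra.norm_eq_of_equiv_equiv F F' F F' _ _ _ _ (algebraAlong ψ) (algebraAlong ψ)
    e₁ e₂ (by
      refine RingHom.ext fun a => ?_
      exact (h a).symm) z
  rw [this, RingEquiv.apply_symm_apply]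

/-- `m D = div f ⟹ m φ_* D = div (N_φ f)`. -/
theorem isDiv_pushforwardAlong (φ : F →ₐ[K] F') (hφ : φ.toRingHom.IsIntegral)
    (hfin : FiniteAlong K φ) (hN : NormFormulaAlong K φ hfin) {m : ℤ} {D : Divisor K F'} {f : F'}
    (hf : TorsES.IsDiv m D f) :
    TorsES.IsDiv m (Divisor.pushforwardAlong φ hφ D) (TorsES.normAlong φ f) := by
  letI := algebraAlong φ
  haveI := isScalarTower_along φ
  haveI := isIntegral_along φ hφ
  haveI : Module.Finite F F' := hfin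
  refine ⟨Algebra.norm_ne_zero_iff.mpr hf.1, fun v => ?_⟩
  have h1 : ∀ w : Place K F', (m • D) w = w.ord f := fun w => by
    rw [Finsupp.smul_apply, smul_eq_mul, hf.2 w]
  have h2 := hN f hf.1 (m • D) h1 v
  have h3 : Divisor.pushforward F (m • D) = m • Divisor.pushforward F D := map_zsmul _ _ _
  rw [h3, Finsupp.smul_apply, smul_eq_mul] at h2
  exact h2

end Abs

/-! ### the map `Bp` -/

section Level

variable (M' c p : ℕ) [NeZero M'] [NeZero c] [NeZero p]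

/-- `T ↦ T ^ c`, `F_{M' p} → F_{M' c p}`. -/
def Bp : FN (M' * p) →ₐ[Kb] FN (M' * c * p) := betaUp M' c p

theorem coe_Bp (x : FN (M' * p)) :
    ((Bp M' c p x : FN (M' * c * p)) : LaurentSeries Kb) = qExpand Kb c (x : LaurentSeries Kb) :=
  coe_betaUp M' c p x

theorem isRat_Bp : IsRat (Bp M' c p) := by
  intro σ x
  exact S36.Kum.smul_betaUp M' c p σ x

/-- `Γ` on functions. -/
def GamX (u : FN (M' * c * p)) : FN (M' * c * p) := Bp M' c p (TorsES.normAlong (Bp M' c p) u)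

/-- `Γ = B^* B_*` on `J₀(M' c p)`. -/
def GamJ : JZero (M' * c * p) →+ JZero (M' * c * p) :=
  (jPull (Bp M' c p)).comp (jPush (Bp M' c p))

theorem GamJ_apply (y : JZero (M' * c * p)) :
    GamJ M' c p y = jPull (Bp M' c p) (jPush (Bp M' c p) y) := rfl

theorem GamJ_smul (σ : GQ) (y : JZero (M' * c * p)) : GamJ M' c p (σ • y) = σ • GamJ M' c p y := by
  rw [GamJ_apply, GamJ_apply, jPush_smul (isRat_Bp M' c p), jPull_smul (isRat_Bp M' c p)]

theorem GamJ_jPull (x : JZero (M' * p)) :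
    GamJ M' c p (jPull (Bp M' c p) x) = finrankAlong Kb (Bp M' c p) • jPull (Bp M' c p) x := by
  rw [GamJ_apply, jPush_jPull, map_nsmul]

/-- `m D = div f ⟹ B^* [D] = [D']`, `m D' = div (B f)`. -/
theorem jPull_Bp_mk {m : ℤ} (D : Divisor.degZero (K := Kb) (F := FN (M' * p))) {f : FN (M' * p)}
    (hf : TorsES.IsDiv m (D : Divisor Kb (FN (M' * p))) f) :
    ∃ D' : Divisor.degZero (K := Kb) (F := FN (M' * c * p)),
      jPull (Bp M' c p) (Pic0.mk D) = Pic0.mk D' ∧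
        TorsES.IsDiv m (D' : Divisor Kb (FN (M' * c * p))) (Bp M' c p f) :=
  ⟨_, jPull_mk _ D, hf.pullbackAlong (Bp M' c p) (isIntegral_any _)⟩

/-- `m D = div f ⟹ Γ [D] = [D']`, `m D' = div (Γ^× f)`. -/
theorem GamJ_mk {m : ℤ} (D : Divisor.degZero (K := Kb) (F := FN (M' * c * p)))
    {f : FN (M' * c * p)} (hf : TorsES.IsDiv m (D : Divisor Kb (FN (M' * c * p))) f) :
    ∃ D' : Divisor.degZero (K := Kb) (F := FN (M' * c * p)),
      GamJ M' c p (Pic0.mk D) = Pic0.mk D' ∧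
        TorsES.IsDiv m (D' : Divisor Kb (FN (M' * c * p))) (GamX M' c p f) := by
  have h1 := isDiv_pushforwardAlong (Bp M' c p) (isIntegral_any _) (finiteAlong_any _)
    (normFormula_any _) hf
  refine ⟨_, by rw [GamJ_apply, jPush_mk, jPull_mk], ?_⟩
  rw [RED.coe_pullDegZero, SS.coe_pushDegZero]
  exact h1.pullbackAlong (Bp M' c p) (isIntegral_any _)

end Level

/-! ### (G1) as a hypothesis, level-agnostic -/

/-- **(G1)** `(N_φ u)(T ^ c) = ∏_{b < c} u(ζ^b T)`. -/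
def NormFormulaB {N L : ℕ} (φ : FN N →ₐ[Kb] FN L) (c : ℕ) [NeZero c] : Prop :=
  ∀ ζ : Kbˣ, IsPrimitiveRoot ζ c → ∀ u : FN L,
    qExpand Kb c ((TorsES.normAlong φ u : FN N) : LaurentSeries Kb) =
      ∏ b ∈ Finset.range c, rotR (ζ ^ b) (u : LaurentSeries Kb)

/-- (G1) does not depend on the way the level is written. -/
theorem NormFormulaB.of_eq {N L L' : ℕ} {c : ℕ} [NeZero c] (hL : L = L') {φ : FN N →ₐ[Kb] FN L}
    {φ' : FN N →ₐ[Kb] FN L'} (hφ : ∀ x, ((φ x : FN L) : LaurentSeries Kb) = φ' x)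
    (h : NormFormulaB φ c) : NormFormulaB φ' c := by
  subst hL
  have : φ = φ' := AlgHom.ext fun x => Subtype.ext (hφ x)
  rwa [← this]

/-- the degree does not depend on the way the level is written. -/
theorem finrankAlong_of_eq {N L L' : ℕ} (hL : L = L') {φ : FN N →ₐ[Kb] FN L}
    {φ' : FN N →ₐ[Kb] FN L'} (hφ : ∀ x, ((φ x : FN L) : LaurentSeries Kb) = φ' x) :
    finrankAlong Kb φ = finrankAlong Kb φ' := by
  subst hL
  have : φ = φ' := AlgHom.ext fun x => Subtype.ext (hφ x)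
  rw [this]

theorem normFormulaB_Bp (M' c p : ℕ) [NeZero M'] [NeZero c] [NeZero p]
    (h : NormFormulaB (heckeBetaBar Kb (M' * p) c) c) : NormFormulaB (Bp M' c p) c :=
  h.of_eq (Nat.mul_right_comm M' p c) fun x => by rw [coe_heckeBetaBar, coe_Bp]

theorem finrankAlong_Bp (M' c p : ℕ) [NeZero M'] [NeZero c] [NeZero p] :
    finrankAlong Kb (Bp M' c p) = finrankAlong Kb (heckeBetaBar Kb (M' * p) c) :=
  (finrankAlong_of_eq (Nat.mul_right_comm M' p c) fun x => by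
    rw [coe_heckeBetaBar, coe_Bp]).symm

/-! ### the swap -/

section Swap

variable {M' c p : ℕ} [NeZero M'] [NeZero c] [hp : Fact p.Prime]
  (h₁ : ¬ p ∣ M') (h₂ : ¬ p ∣ M' * c)

/-- the swap as a ring automorphism. -/
def swRingEquiv {M : ℕ} [NeZero M] (h : ¬ p ∣ M) : FN (M * p) ≃+* FN (M * p) :=
  RingEquiv.ofBijective (swAlg M p h : FN (M * p) →+* FN (M * p))
    ⟨(swAlg M p h : FN (M * p) →+* FN (M * p)).injective, swAlg_surjective h⟩

theorem swRingEquiv_apply {M : ℕ} [NeZero M] (h : ¬ p ∣ M) (x : FN (M * p)) :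
    swRingEquiv h x = swAlg M p h x := rfl

/-- **(G3a)** `w_p B = B w_p`. -/
theorem swAlg_Bp (f : FN (M' * p)) :
    swAlg (M' * c) p h₂ (Bp M' c p f) = Bp M' c p (swAlg M' p h₁ f) := by
  apply Subtype.ext
  rw [coe_swAlg_of_qExpand h₁ h₂ dvd_rfl (coe_Bp M' c p f), coe_Bp]

/-- **(G3b)** `N_B w_p = w_p N_B`. -/
theorem normAlong_Bp_swAlg (u : FN (M' * c * p)) :
    TorsES.normAlong (Bp M' c p) (swAlg (M' * c) p h₂ u) =
      swAlg M' p h₁ (TorsES.normAlong (Bp M' c p) u) :=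
  normAlong_equiv_equiv (Bp M' c p) (swRingEquiv h₁) (swRingEquiv h₂)
    (fun a => swAlg_Bp h₁ h₂ a) u

include h₁ in
/-- `Γ^× w_p = w_p Γ^×`. -/
theorem swAlg_GamX (u : FN (M' * c * p)) :
    swAlg (M' * c) p h₂ (GamX M' c p u) = GamX M' c p (swAlg (M' * c) p h₂ u) := by
  rw [GamX, GamX, swAlg_Bp h₁ h₂, normAlong_Bp_swAlg h₁ h₂]

/-- **(G3c)** the first expansion of `Γ^× u`. -/
theorem emb₁_GamX (hG : NormFormulaB (Bp M' c p) c) (ζ : Kbˣ) (hζ : IsPrimitiveRoot ζ c)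
    (u : FN (M' * c * p)) :
    emb₁ (M' * c) p (GamX M' c p u) =
      ∏ b ∈ Finset.range c, rotR (ζ ^ b) (emb₁ (M' * c) p u) := by
  rw [emb₁_apply, GamX, coe_Bp, hG ζ hζ u, emb₁_apply]

include h₁ in
/-- **(G3c)** the second expansion of `Γ^× u`. -/
theorem emb₂_GamX (hG : NormFormulaB (Bp M' c p) c) (ζ : Kbˣ) (hζ : IsPrimitiveRoot ζ c)
    (u : FN (M' * c * p)) :
    emb₂ (M' * c) p h₂ (GamX M' c p u) =
      ∏ b ∈ Finset.range c, rotR (ζ ^ b) (emb₂ (M' * c) p h₂ u) := by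
  rw [← emb₁_swAlg, swAlg_GamX h₁ h₂, emb₁_GamX hG ζ hζ, emb₁_swAlg]

end Swap

/-! ### the explicit form of `exists_pull_new` -/

section Pull

/-- `φ^*` is `Bstar` for every `φ` with expansion `T ↦ T ^ c`. -/
theorem jPull_eq_zero_of_torsion {N c N' : ℕ} [NeZero N] [NeZero c] [NeZero N']
    (hc : c = 4 ∨ c = 9) (hN' : N' = N * c) (φ : FN N →ₐ[Kb] FN N')
    (hφ : ∀ x, ((φ x : FN N') : LaurentSeries Kb) = qExpand Kb c (x : LaurentSeries Kb))
    (m : ℕ) (hm : m ≠ 0) (x : JZero N) (hmx : m • x = 0) (hx : jPull φ x = 0) : x = 0 := by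
  subst hN'
  have h1 : φ = heckeBetaBar Kb N c :=
    AlgHom.ext fun x => Subtype.ext (by rw [hφ, coe_heckeBetaBar])
  subst h1
  exact Bstar_eq_zero_of_torsion N c hc (heckeInputsAlong' N c) x m hm hmx hx

variable (M' c p : ℕ) [NeZero M'] [NeZero c] [hp : Fact p.Prime]

theorem jPull_Bp_smul (σ : GQ) (x : JZero (M' * p)) :
    jPull (Bp M' c p) (σ • x) = σ • jPull (Bp M' c p) x :=
  jPull_smul (isRat_Bp M' c p) σ x

theorem jPull_Bp_eq_zero_of_torsion (hc : c = 4 ∨ c = 9) (m : ℕ) (hm : m ≠ 0)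
    (x : JZero (M' * p)) (hmx : m • x = 0) (hx : jPull (Bp M' c p) x = 0) : x = 0 :=
  jPull_eq_zero_of_torsion hc (Nat.mul_right_comm _ _ _) (Bp M' c p) (coe_Bp M' c p) m hm x hmx hx

theorem isPNew_jPull_Bp (hpM : ¬ p ∣ M' * c) {y : JZero (M' * p)} (h : IsPNew M' p y) :
    IsPNew (M' * c) p (jPull (Bp M' c p) y) := by
  obtain ⟨hy, hyA, hyB⟩ := h
  have hp0 : p ≠ 0 := hp.out.ne_zero
  obtain ⟨D, rfl⟩ := Pic0.mk_surjective y
  obtain ⟨f, hf⟩ := TorsES.exists_isDiv_of_nsmul_eq_zero hy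
  obtain ⟨h, -, hh⟩ := exists_normAlong_eq_of_pushPic0_eq_zero _ _ _ _
    (RB.isSepParam_jF M') hp0 hf hyA
  obtain ⟨h', -, hh'⟩ := exists_normAlong_eq_of_pushPic0_eq_zero _ _ _ _
    (RB.isSepParam_jF M') hp0 hf hyB
  obtain ⟨D', hD', hf'⟩ := jPull_Bp_mk M' c p D hf
  have hcoe := coe_Bp M' c p f
  refine ⟨by rw [← map_nsmul, hy, map_zero], ?_, ?_⟩
  · rw [hD']
    refine pushPic0_eq_zero_of_normAlong_eq _ _ _ _ hp0 hf' (h := heckeBetaBar Qbar M' c h) ?_
    apply Subtype.ext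
    rw [normAlong_alpha_bc M' c p hpM f _ hcoe, hh]
    push_cast
    rw [map_pow, coe_heckeBetaBar]
  · rw [hD']
    refine pushPic0_eq_zero_of_normAlong_eq _ _ _ _ hp0 hf' (h := heckeBetaBar Qbar M' c h') ?_
    apply Subtype.ext
    rw [normAlong_beta_bc M' c p hpM f _ hcoe, hh']
    push_cast
    rw [map_pow, coe_heckeBetaBar]

end Pull

end Fermat.Agent.S40
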