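import Fermat.Agent.S40.Geo.TriAbs
import Fermat.Agent.HK.Good
import Fermat.Agent.S40.Kill.Main
import Fermat.Agent.SS.Z1.LevelTwo

/-!
# S40 / GEO : the relation `Tri` at a rigid level `M`, `p ∤ M`   (helper38 #2155 (A2)-(A4))

`T = twoRed` at the level `M p`, `Rel = HK.Rel p` at the level `M`.

INTERFACES (Props, to be proved by the owners of the blocks):
* `FormalAt hpM A ℓ`  ([HK-FORMAL] at the level `M p`, both valuations; helper52) : for `f ∈ O₁ ∩ O₂` a unit for both valuations,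
  `N_α (β f) ∈ O₁ ∩ O₂` and its reductions are `T^×_ℓ` of the reductions of `f`.
* `GammaUp hpM A c Γ`, `GammaDown A c Γ'` ([GAMMA]) : the same for `Γ = B^* B_*`, formal operator `w ↦ ∏_{b < c} w(ζ^b q)`.

RESULTS
* `compat_hecke`, `compat_gamma` : the pairs `(T_ℓ, T_ℓ)`, `(Γ, Γ')` preserve `Tri`;
* `isToric_poly_gamma` : `Tri y y₁ y₂ ⟹ t₀(T) Γ y` is toric as soon as `red (t₀(T) Γ' y') = 0` for all `y'`.
-/

set_option autoImplicit false
set_option linter.unusedSectionVars false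
set_option linter.style.haveILetI false
set_option synthInstance.maxHeartbeats 400000

noncomputable section

open AlgebraicCurve ModularCurve IsLocalRing

namespace Fermat.Agent.S40

open Fermat.Agent.RED hiding GQ Kb
open Fermat.Agent.RED.ES Fermat.Agent.RED.Gauss Fermat.Agent.S24 Fermat.Agent.SS Fermat.Agent.HK
open Fermat.Agent.GAL.HeckeInputs Fermat.Agent.S40.Kill

variable {M p : ℕ} [NeZero M] [hp : Fact p.Prime] (hpM : ¬ p ∣ M) (A : ValuationSubring Kb)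
  [CharP (ResidueField A) p] [IsAlgClosed (ResidueField A)]

/-- the two reductions at the level `M p`. -/
abbrev TT : TwoRed Kb (FN (M * p)) (ResidueField A) (Cusp.Fb (ResidueField A) M) :=
  twoRed hpM (residue A) residue_surjective

/-- the relation `Tri` at the level `M`. -/
abbrev TriM (y : JZero (M * p)) (y₁ y₂ : JZero M) : Prop :=
  Tri (TT hpM A) p (HK.Rel (M := M) (A := A) p) y y₁ y₂

/-- **Interface [HK-FORMAL]** at the level `M p`. -/
def FormalAt (ℓ : ℕ) [NeZero ℓ] : Prop :=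
  ∀ f : (TT hpM A).O, ((TT hpM A).red f).1 ≠ 0 → ((TT hpM A).red f).2 ≠ 0 →
    ∃ g : (TT hpM A).O,
      (g : FN (M * p)) = TorsES.normAlong (heckeAlphaBar Kb (M * p) ℓ)
        (heckeBetaBar Kb (M * p) ℓ (f : FN (M * p))) ∧
      FormalT ℓ (zetaK ℓ (residue A)) (((TT hpM A).red f).1 : LaurentSeries (ResidueField A))
        (((TT hpM A).red g).1 : LaurentSeries (ResidueField A)) ∧
      FormalT ℓ (zetaK ℓ (residue A)) (((TT hpM A).red f).2 : LaurentSeries (ResidueField A))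
        (((TT hpM A).red g).2 : LaurentSeries (ResidueField A))

/-- the formal operator `w ↦ ∏_{b < c} w(ζ^b q)`. -/
def FormalG {k : Type*} [Field k] (c : ℕ) (ζ : kˣ) (w z : LaurentSeries k) : Prop :=
  z = ∏ b ∈ Finset.range c, rotR (ζ ^ b) w

/-- **Interface [GAMMA]**, level `M p`. -/
def GammaUp (c : ℕ) [NeZero c] (Γ : Module.End ℤ (JZero (M * p))) : Prop :=
  ∀ (D : Divisor.degZero (K := Kb) (F := FN (M * p))) (f : (TT hpM A).O),
    (∀ v : Place Kb (FN (M * p)), (p : ℤ) * (D : Divisor Kb (FN (M * p))) v = v.ord (f : FN (M * p))) →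
    ((TT hpM A).red f).1 ≠ 0 → ((TT hpM A).red f).2 ≠ 0 →
    ∃ (D' : Divisor.degZero (K := Kb) (F := FN (M * p))) (g : (TT hpM A).O),
      Γ (Pic0.mk D) = Pic0.mk D' ∧
      (∀ v : Place Kb (FN (M * p)),
        (p : ℤ) * (D' : Divisor Kb (FN (M * p))) v = v.ord (g : FN (M * p))) ∧
      FormalG c (zetaK c (residue A)) (((TT hpM A).red f).1 : LaurentSeries (ResidueField A))
        (((TT hpM A).red g).1 : LaurentSeries (ResidueField A)) ∧
      FormalG c (zetaK c (residue A)) (((TT hpM A).red f).2 : LaurentSeries (ResidueField A))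
        (((TT hpM A).red g).2 : LaurentSeries (ResidueField A))

/-- **Interface [GAMMA]**, level `M`. -/
def GammaDown (n c : ℕ) [NeZero c] (Γ' : Module.End ℤ (JZero M)) : Prop :=
  ∀ (w : modularFunctionFieldFullC (ResidueField A) M) (y : JZero M), HK.Rel (A := A) n w y →
    ∃ z : modularFunctionFieldFullC (ResidueField A) M,
      FormalG c (zetaK c (residue A)) (w : LaurentSeries (ResidueField A))
        (z : LaurentSeries (ResidueField A)) ∧ HK.Rel (A := A) n z (Γ' y)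

variable (hA : A.LiesOverPrime p)

include hA hpM in
theorem isMulRel_rel (n : ℕ) : IsMulRel (HK.Rel (M := M) (A := A) n) where
  ne_zero h := h.ne_zero
  one := by
    have := HK.rel_const_mul_pow (M := M) (A := A) hA hpM n (c := 1) one_ne_zero (u := 1) one_ne_zero
    simpa using this
  mul h h' := h.mul h'
  inv h := h.inv

include hA in
theorem triM_isAddRel : IsAddRel (TriM hpM A) := tri_isAddRel (isMulRel_rel hpM A hA p)

/-- `T_ℓ` on a class, in terms of divisors and functions. -/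
theorem hecke_mk_isDiv (N : ℕ) [NeZero N] (ℓ : Nat.Primes) {m : ℤ}
    (D : Divisor.degZero (K := Kb) (F := FN N)) {f : FN N}
    (hf0 : f ≠ 0) (hf : ∀ v : Place Kb (FN N), m * (D : Divisor Kb (FN N)) v = v.ord f) :
    haveI : NeZero (ℓ : ℕ) := ⟨ℓ.2.ne_zero⟩
    ∃ D' : Divisor.degZero (K := Kb) (F := FN N), heckeOperatorBar N ℓ (Pic0.mk D) = Pic0.mk D' ∧
      ∀ v : Place Kb (FN N), m * (D' : Divisor Kb (FN N)) v =
        v.ord (TorsES.normAlong (heckeAlphaBar Kb N ℓ) (heckeBetaBar Kb N ℓ f)) := by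
  haveI : NeZero (ℓ : ℕ) := ⟨ℓ.2.ne_zero⟩
  refine ⟨Pic0.degZeroCorrespondence (heckeBetaBar Kb N ℓ) (heckeAlphaBar Kb N ℓ)
        (heckeBetaBarIntegral N ℓ) (heckeAlphaBarIntegral N ℓ)
        (fundamentalIdentityAlong_beta N ℓ) D, ?_, fun v => ?_⟩
  · change heckeOperatorAlong Kb N ℓ (Pic0.mk D) = _
    rw [heckeOperatorAlong_eq' N ℓ]
    rfl
  · have h1 : ∀ P, (m • (D : Divisor Kb (FN N))) P = P.ord f := fun P => by
      rw [Finsupp.smul_apply, smul_eq_mul, hf]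
    have h2 := TDiv_apply_of_isDiv (ℓ := (ℓ : ℕ)) hf0 h1 v
    rw [map_zsmul, Finsupp.smul_apply, smul_eq_mul] at h2
    exact h2

variable (h49 : 4 ∣ M ∨ 9 ∣ M) (h : ReductionInputsModL A M)

include hA h49 h in
/-- **(A2)** -/
theorem compat_hecke (ℓ : Nat.Primes) (hℓ : ¬ (ℓ : ℕ) ∣ M)
    (hF : haveI : NeZero (ℓ : ℕ) := ⟨ℓ.2.ne_zero⟩; FormalAt hpM A (ℓ : ℕ)) :
    Compat (TriM hpM A) (heckeOperatorBar (M * p) ℓ) (heckeOperatorBar M ℓ) := by
  haveI : NeZero (ℓ : ℕ) := ⟨ℓ.2.ne_zero⟩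
  rintro _ y₁ y₂ ⟨D, f, rfl, hf, h1, h2⟩
  obtain ⟨g, hg, hg1, hg2⟩ := hF f h1.ne_zero h2.ne_zero
  obtain ⟨D', hD', hD'f⟩ := hecke_mk_isDiv (M * p) ℓ D
    (TwoRed.ne_zero_of_red_fst_ne_zero h1.ne_zero) hf
  obtain ⟨z₁, hz₁, hr₁⟩ := h1.hecke hA hpM h49 h ℓ hℓ
  obtain ⟨z₂, hz₂, hr₂⟩ := h2.hecke hA hpM h49 h ℓ hℓ
  refine ⟨D', g, hD', fun v => by rw [hg]; exact hD'f v, ?_, ?_⟩
  · have : ((TT hpM A).red g).1 = z₁ := Subtype.ext (hg1.unique hz₁)
    rw [this]; exact hr₁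
  · have : ((TT hpM A).red g).2 = z₂ := Subtype.ext (hg2.unique hz₂)
    rw [this]; exact hr₂

/-- **(A3)** -/
theorem compat_gamma {c : ℕ} [NeZero c] {Γ : Module.End ℤ (JZero (M * p))}
    {Γ' : Module.End ℤ (JZero M)} (hΓ : GammaUp hpM A c Γ) (hΓ' : GammaDown A p c Γ') :
    Compat (TriM hpM A) Γ Γ' := by
  rintro _ y₁ y₂ ⟨D, f, rfl, hf, h1, h2⟩
  obtain ⟨D', g, hD', hg, hg1, hg2⟩ := hΓ D f hf h1.ne_zero h2.ne_zero
  obtain ⟨z₁, hz₁, hr₁⟩ := hΓ' _ _ h1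
  obtain ⟨z₂, hz₂, hr₂⟩ := hΓ' _ _ h2
  refine ⟨D', g, hD', hg, ?_, ?_⟩
  · have : ((TT hpM A).red g).1 = z₁ := Subtype.ext (hg1.trans hz₁.symm)
    rw [this]; exact hr₁
  · have : ((TT hpM A).red g).2 = z₂ := Subtype.ext (hg2.trans hz₂.symm)
    rw [this]; exact hr₂

include hA h49 h in
/-- polynomials in the `T_ℓ`, `ℓ ∉ S`. -/
theorem compat_polyT (S : Set ℕ) (hS : ∀ ℓ : ℕ, ℓ.Prime → ℓ ∉ S → ¬ ℓ ∣ M)
    (hF : ∀ ℓ : ℕ, ℓ.Prime → ℓ ∉ S → ∀ _ : NeZero ℓ, FormalAt hpM A ℓ)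
    (f : MvPolynomial ℕ ℤ →+* Module.End ℤ (JZero (M * p)))
    (hf : ∀ ℓ, f (MvPolynomial.X ℓ) = TJ (M * p) S ℓ)
    (f' : MvPolynomial ℕ ℤ →+* Module.End ℤ (JZero M))
    (hf' : ∀ ℓ, f' (MvPolynomial.X ℓ) = TJ M S ℓ) (t : MvPolynomial ℕ ℤ) :
    Compat (TriM hpM A) (f t) (f' t) := by
  refine compat_poly (triM_isAddRel hpM A hA) f f' (fun ℓ => ?_) t
  rw [hf, hf']
  by_cases hℓ : ℓ.Prime ∧ ℓ ∉ S
  · rw [TJ_of_good hℓ.1 hℓ.2, TJ_of_good hℓ.1 hℓ.2]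
    exact compat_hecke hpM A hA h49 h ⟨ℓ, hℓ.1⟩ (hS ℓ hℓ.1 hℓ.2) (hF ℓ hℓ.1 hℓ.2 _)
  · rw [TJ_of_bad hℓ, TJ_of_bad hℓ]
    exact Compat.zero (triM_isAddRel hpM A hA)

include hA in
/-- **(A4)** -/
theorem TriM.isToric {y : JZero (M * p)} {y₁ y₂ : JZero M} (hT : TriM hpM A y y₁ y₂)
    (h₁ : reductionModL A M y₁ = 0) (h₂ : reductionModL A M y₂ = 0) :
    IsToric (TT hpM A) p y := by
  refine Tri.isToric hp.out.ne_zero hT ?_
  rintro w (hw | hw)
  · exact hw.eq_const_mul_pow hA hpM h₁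
  · exact hw.eq_const_mul_pow hA hpM h₂

end Fermat.Agent.S40
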