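import Fermat.Agent.S40.Geo.GammaP
import Fermat.Agent.S40.Geo.Tri
import Fermat.Agent.S40.HK.Formal
import Fermat.Agent.HK.GammaNormGen

/-!
# S40 / GEO / [GAMMA] : the interface `GammaUp` of `S40/Geo/Tri.lean` for `Γ = B^* B_*`, `B = Bp M' 4 p`   (owner: helper81)

* `FormalG.gauss`      : the formula `z = ∏_{b < c} w(ζ^b q)` passes to the Gauss reduction.
* `normFormulaB_Bp_four`, `finrankAlong_Bp_four` : (G1) and the degree for `Bp M' 4 p`, `2 ∣ M'` (from helper36's `HK/GammaNormGen`).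
* `GamX_mem_R₁`, `GamX_mem_R₂` : `u ∈ O_i ⟹ Γ^× u ∈ O_i`, `red_i (Γ^× u) = ∏_b (red_i u)(ζ^b q)`.
* `gammaUp_GamJ`       : `GammaUp hpM A 4 (GamE M' 4 p)`; `GamE` is `GamJ` as a `ℤ`-linear endomorphism.
* `GamE_jPull`         : `Γ (B^* x) = 4 • B^* x`.
-/

set_option autoImplicit false
set_option linter.unusedSectionVars false
set_option linter.style.haveILetI false
set_option synthInstance.maxHeartbeats 400000

noncomputable section

open AlgebraicCurve ModularCurve IsLocalRing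

namespace Fermat.Agent.S40

open Fermat.Agent.RED hiding GQ Kb
open Fermat.Agent.RED.ES Fermat.Agent.RED.Gauss Fermat.Agent.S24 Fermat.Agent.SS Fermat.Agent.HK
open Fermat.Agent.RED.Cusp (Fb jb)
open Fermat.Agent.RIB

/-! ### the formal operator and the Gauss reduction -/

section Gauss

variable {L : Type*} [Field L] {A : ValuationSubring L} {k : Type*} [Field k] (π : A →+* k)
variable {c : ℕ}

theorem FormalG.gauss (ζ : Aˣ) {u z : LaurentSeries L}
    (h : FormalG c (Units.map (A.subtype : A →* L) ζ) u z) (hu : u ∈ bigO π) :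
    ∃ hz : z ∈ bigO π,
      FormalG c (Units.map (π : A →* k) ζ) (bigRed π ⟨u, hu⟩) (bigRed π ⟨z, hz⟩) := by
  obtain ⟨a, b, hb, hab⟩ := id hu
  set a' : LaurentSeries A := ∏ i ∈ Finset.range c, rotR (ζ ^ i) a with ha'
  set b' : LaurentSeries A := ∏ i ∈ Finset.range c, rotR (ζ ^ i) b with hb'
  have hι : ∀ x : LaurentSeries A, iota A (∏ i ∈ Finset.range c, rotR (ζ ^ i) x) =
      ∏ i ∈ Finset.range c, rotR (Units.map (A.subtype : A →* L) ζ ^ i) (iota A x) := by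
    intro x
    rw [map_prod]
    refine Finset.prod_congr rfl fun i _ => ?_
    show coeffMap A.subtype _ = _
    rw [coeffMap_rotR, map_pow]
    rfl
  have hπ' : ∀ x : LaurentSeries A, pi π (∏ i ∈ Finset.range c, rotR (ζ ^ i) x) =
      ∏ i ∈ Finset.range c, rotR (Units.map (π : A →* k) ζ ^ i) (pi π x) := by
    intro x
    rw [map_prod]
    refine Finset.prod_congr rfl fun i _ => ?_
    show coeffMap π _ = _
    rw [coeffMap_rotR, map_pow]
    rfl
  have hπb' : pi π b' ≠ 0 := by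
    rw [hb', hπ', Finset.prod_ne_zero_iff]
    intro i _
    rw [Ne, map_eq_zero_iff _ (rotR_injective _)]
    exact hb
  have key : z * iota A b' = iota A a' := by
    rw [hb', ha', hι, hι, ← hab, h, ← Finset.prod_mul_distrib]
    exact Finset.prod_congr rfl fun i _ => (map_mul _ _ _).symm
  have hz : z ∈ bigO π := ⟨a', b', hπb', key⟩
  refine ⟨hz, ?_⟩
  rw [bigRed_eq π ⟨z, hz⟩ hπb' key, bigRed_eq π ⟨u, hu⟩ hb hab]
  unfold FormalG
  rw [ha', hb', hπ', hπ', ← Finset.prod_div_distrib]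
  exact Finset.prod_congr rfl fun i _ => (map_div₀ _ _ _).symm

end Gauss

/-! ### (G1) and the degree for `Bp M' 4 p` -/

section Four

variable (M' p : ℕ) [NeZero M'] [NeZero p]

theorem finrankAlong_Bp_four (h2 : 2 ∣ M') : finrankAlong Kb (Bp M' 4 p) = 4 :=
  finrankAlong_four_of_coe (Dvd.dvd.mul_right h2 p) (Nat.mul_right_comm M' p 4) (Bp M' 4 p)
    (coe_Bp M' 4 p)

theorem normFormulaB_Bp_four (h2 : 2 ∣ M') : NormFormulaB (Bp M' 4 p) 4 := fun ζ hζ u =>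
  qExpand_normAlong_of_coe (Bp M' 4 p) (coe_Bp M' 4 p) (finrankAlong_Bp_four M' p h2) ζ hζ u

end Four

/-! ### the two reductions -/

section Two

variable {M' c p : ℕ} [NeZero M'] [NeZero c] [hp : Fact p.Prime] (h₂ : ¬ p ∣ M' * c)
variable {A : ValuationSubring Kb} {k : Type*} [Field k]
variable (π : A →+* k) [CharP k p] [IsAlgClosed k] (hπ : Function.Surjective π)

theorem not_dvd_left_of_not_dvd_mul {p M' c : ℕ} (h₂ : ¬ p ∣ M' * c) : ¬ p ∣ M' :=
  fun h => h₂ (Dvd.dvd.mul_right h c)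

/-- **[GAMMA]**, first valuation. -/
theorem GamX_mem_R₁ (hG : NormFormulaB (Bp M' c p) c) (ζ : Aˣ)
    (hζ : IsPrimitiveRoot (Units.map (A.subtype : A →* Kb) ζ) c)
    {u : FN (M' * c * p)} (hu : u ∈ (twoRed h₂ π hπ).R₁.O) :
    ∃ h : GamX M' c p u ∈ (twoRed h₂ π hπ).R₁.O,
      FormalG c (Units.map (π : A →* k) ζ)
        (((twoRed h₂ π hπ).R₁.red ⟨u, hu⟩ : Fb k (M' * c)) : LaurentSeries k)
        (((twoRed h₂ π hπ).R₁.red ⟨_, h⟩ : Fb k (M' * c)) : LaurentSeries k) := by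
  obtain ⟨g, e⟩ := emb₁_mem_of_mem_R₁ h₂ π hπ hu
  have h0 : FormalG c (Units.map (A.subtype : A →* Kb) ζ) (emb₁ (M' * c) p u)
      (emb₁ (M' * c) p (GamX M' c p u)) := emb₁_GamX hG _ hζ u
  obtain ⟨hz, hz'⟩ := h0.gauss π ζ g
  have h := S40.HK.mem_R₁_of_emb₁ h₂ π hπ hz
  obtain ⟨g', e'⟩ := emb₁_mem_of_mem_R₁ h₂ π hπ h
  exact ⟨h, by rw [e, e']; exact hz'⟩

/-- **[GAMMA]**, second valuation. -/
theorem GamX_mem_R₂ (hG : NormFormulaB (Bp M' c p) c) (ζ : Aˣ)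
    (hζ : IsPrimitiveRoot (Units.map (A.subtype : A →* Kb) ζ) c)
    {u : FN (M' * c * p)} (hu : u ∈ (twoRed h₂ π hπ).R₂.O) :
    ∃ h : GamX M' c p u ∈ (twoRed h₂ π hπ).R₂.O,
      FormalG c (Units.map (π : A →* k) ζ)
        (((twoRed h₂ π hπ).R₂.red ⟨u, hu⟩ : Fb k (M' * c)) : LaurentSeries k)
        (((twoRed h₂ π hπ).R₂.red ⟨_, h⟩ : Fb k (M' * c)) : LaurentSeries k) := by
  obtain ⟨g, e⟩ := emb₂_mem_of_mem_R₂ h₂ π hπ hu
  have h0 : FormalG c (Units.map (A.subtype : A →* Kb) ζ) (emb₂ (M' * c) p h₂ u)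
      (emb₂ (M' * c) p h₂ (GamX M' c p u)) :=
    emb₂_GamX (not_dvd_left_of_not_dvd_mul h₂) h₂ hG _ hζ u
  obtain ⟨hz, hz'⟩ := h0.gauss π ζ g
  have h := S40.HK.mem_R₂_of_emb₂ h₂ π hπ hz
  obtain ⟨g', e'⟩ := emb₂_mem_of_mem_R₂ h₂ π hπ h
  exact ⟨h, by rw [e, e']; exact hz'⟩

end Two

/-! ### the interface `GammaUp` -/

section Up

variable (M' c p : ℕ) [NeZero M'] [NeZero c] [hp : Fact p.Prime]

/-- `Γ = B^* B_*` as a `ℤ`-linear endomorphism of `J₀(M' c p)`. -/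
def GamE : Module.End ℤ (JZero (M' * c * p)) := (GamJ M' c p).toIntLinearMap

theorem GamE_apply (y : JZero (M' * c * p)) : GamE M' c p y = GamJ M' c p y := rfl

theorem GamE_apply' (y : JZero (M' * c * p)) :
    GamE M' c p y = jPull (Bp M' c p) (jPush (Bp M' c p) y) := rfl

theorem GamE_jPull (x : JZero (M' * p)) :
    GamE M' c p (jPull (Bp M' c p) x) = finrankAlong Kb (Bp M' c p) • jPull (Bp M' c p) x :=
  GamJ_jPull M' c p x

theorem GamE_jPull_four (h2 : 2 ∣ M') (x : JZero (M' * p)) :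
    GamE M' 4 p (jPull (Bp M' 4 p) x) = 4 • jPull (Bp M' 4 p) x := by
  rw [GamE_jPull, finrankAlong_Bp_four M' p h2]

variable {M' c p}
variable (hpM : ¬ p ∣ M' * c) (A : ValuationSubring Kb)
  [CharP (ResidueField A) p] [IsAlgClosed (ResidueField A)]

/-- **[GAMMA]**, level `M' c p` : the interface `GammaUp`, from (G1). -/
theorem gammaUp_of_normFormulaB (hG : NormFormulaB (Bp M' c p) c) :
    GammaUp hpM A c (GamE M' c p) := by
  intro D f hf h1 h2
  have hf0 : (f : FN (M' * c * p)) ≠ 0 := TwoRed.ne_zero_of_red_fst_ne_zero h1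
  obtain ⟨D', hD', hD'f⟩ := GamJ_mk M' c p (m := (p : ℤ)) D (f := (f : FN (M' * c * p))) ⟨hf0, hf⟩
  obtain ⟨m1, r1⟩ := GamX_mem_R₁ hpM (residue A) residue_surjective hG (zetaA A c)
    (isPrimitiveRoot_zetaA A c) f.2.1
  obtain ⟨m2, r2⟩ := GamX_mem_R₂ hpM (residue A) residue_surjective hG (zetaA A c)
    (isPrimitiveRoot_zetaA A c) f.2.2
  exact ⟨D', ⟨GamX M' c p f, m1, m2⟩, hD', hD'f.2, r1, r2⟩

end Up

/-- **[GAMMA]**, level `M' 4 p`, `M'` even. -/
theorem gammaUp_GamE {M' p : ℕ} [NeZero M'] [hp : Fact p.Prime] (hpM : ¬ p ∣ M' * 4)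
    (h2 : 2 ∣ M') (A : ValuationSubring Kb) [CharP (ResidueField A) p]
    [IsAlgClosed (ResidueField A)] : GammaUp hpM A 4 (GamE M' 4 p) :=
  gammaUp_of_normFormulaB hpM A (normFormulaB_Bp_four M' p h2)

end Fermat.Agent.S40
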