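import Fermat.Agent.SS.Abs.Defs

/-!
# S40 / GEO : the relation `Tri`, abstract part   (helper38 #2155)

`T : TwoRed K F k Fb`.  `J'` an abelian group (`= J₀(M)(ℚ̄)`), `Rel : Fb → J' → Prop` a relation (`= HK.Rel p`) which is multiplicative.

`Tri T m Rel y y₁ y₂` : `y = [D]`, `m D = div f`, `f ∈ O₁ ∩ O₂`, `T.red f = (w₁, w₂)`, `Rel w₁ y₁`, `Rel w₂ y₂`.

* `Tri` is an additive relation (`tri_isAddRel`);
* pairs of operators `(Φ, Φ')` which preserve an additive relation are stable under sums, products, integers, hence under polynomials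
  (`compat_poly`);
* `Tri.isToric` : if `w₁`, `w₂` are constants times `m`-th powers, `y` is toric.
-/

set_option autoImplicit false

open AlgebraicCurve

namespace Fermat.Agent.S40

open Fermat.Agent.RED Fermat.Agent.S24 Fermat.Agent.SS

section Alg

variable {J J' : Type*} [AddCommGroup J] [AddCommGroup J']

/-- an additive relation between `J` and `J' × J'`. -/
structure IsAddRel (R : J → J' → J' → Prop) : Prop where
  zero : R 0 0 0
  add : ∀ {a b c a' b' c'}, R a b c → R a' b' c' → R (a + a') (b + b') (c + c')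
  neg : ∀ {a b c}, R a b c → R (-a) (-b) (-c)

/-- the pair of operators `(Φ, Φ')` preserves the relation. -/
def Compat (R : J → J' → J' → Prop) (Φ : Module.End ℤ J) (Φ' : Module.End ℤ J') : Prop :=
  ∀ a b c, R a b c → R (Φ a) (Φ' b) (Φ' c)

variable {R : J → J' → J' → Prop}

theorem IsAddRel.nsmul (h : IsAddRel R) {a : J} {b c : J'} (hR : R a b c) (n : ℕ) :
    R (n • a) (n • b) (n • c) := by
  induction n with
  | zero => simpa using h.zero
  | succ n ih => rw [succ_nsmul, succ_nsmul, succ_nsmul]; exact h.add ih hR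

theorem IsAddRel.zsmul (h : IsAddRel R) {a : J} {b c : J'} (hR : R a b c) (n : ℤ) :
    R (n • a) (n • b) (n • c) := by
  obtain ⟨n, rfl | rfl⟩ := n.eq_nat_or_neg
  · rw [natCast_zsmul, natCast_zsmul, natCast_zsmul]; exact h.nsmul hR n
  · rw [neg_zsmul, neg_zsmul, neg_zsmul, natCast_zsmul, natCast_zsmul, natCast_zsmul]
    exact h.neg (h.nsmul hR n)

theorem Compat.zero (h : IsAddRel R) : Compat R 0 0 := fun _ _ _ _ => h.zero

theorem Compat.mul {Φ Ψ : Module.End ℤ J} {Φ' Ψ' : Module.End ℤ J'} (h : Compat R Φ Φ')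
    (h' : Compat R Ψ Ψ') : Compat R (Φ * Ψ) (Φ' * Ψ') := fun a b c hR => h _ _ _ (h' a b c hR)

theorem Compat.add (hR : IsAddRel R) {Φ Ψ : Module.End ℤ J} {Φ' Ψ' : Module.End ℤ J'}
    (h : Compat R Φ Φ') (h' : Compat R Ψ Ψ') : Compat R (Φ + Ψ) (Φ' + Ψ') :=
  fun a b c hr => hR.add (h a b c hr) (h' a b c hr)

theorem Compat.intCast (hR : IsAddRel R) (n : ℤ) :
    Compat R (n : Module.End ℤ J) (n : Module.End ℤ J') := fun a b c hr => by
  rw [Module.End.intCast_apply, Module.End.intCast_apply, Module.End.intCast_apply]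
  exact hR.zsmul hr n

/-- polynomials in compatible operators are compatible. -/
theorem compat_poly (hR : IsAddRel R) (f : MvPolynomial ℕ ℤ →+* Module.End ℤ J)
    (f' : MvPolynomial ℕ ℤ →+* Module.End ℤ J')
    (hX : ∀ ℓ, Compat R (f (MvPolynomial.X ℓ)) (f' (MvPolynomial.X ℓ))) (t : MvPolynomial ℕ ℤ) :
    Compat R (f t) (f' t) := by
  induction t using MvPolynomial.induction_on with
  | C c =>
    rw [eq_intCast (MvPolynomial.C : ℤ →+* MvPolynomial ℕ ℤ) c, map_intCast, map_intCast]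
    exact Compat.intCast hR c
  | add P Q hP hQ => rw [map_add, map_add]; exact hP.add hR hQ
  | mul_X P ℓ hP => rw [map_mul, map_mul]; exact hP.mul (hX ℓ)

end Alg

section Tri

variable {K F k Fb : Type*} [Field K] [Field F] [Algebra K F] [Field k] [Field Fb] [Algebra k Fb]
variable {J' : Type*} [AddCommGroup J']

/-- a multiplicative relation between functions on the special fibre and points of `J'`. -/
structure IsMulRel (Rel : Fb → J' → Prop) : Prop where
  ne_zero : ∀ {w y}, Rel w y → w ≠ 0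
  one : Rel 1 0
  mul : ∀ {w w' y y'}, Rel w y → Rel w' y' → Rel (w * w') (y + y')
  inv : ∀ {w y}, Rel w y → Rel w⁻¹ (-y)

/-- `y = [D]`, `m D = div f`, the two reductions of `f` are related to `y₁`, `y₂`. -/
def Tri (T : TwoRed K F k Fb) (m : ℕ) (Rel : Fb → J' → Prop) (y : Pic0 K F) (y₁ y₂ : J') : Prop :=
  ∃ (D : Divisor.degZero (K := K) (F := F)) (f : T.O), y = Pic0.mk D ∧
    (∀ v : Place K F, (m : ℤ) * (D : Divisor K F) v = v.ord (f : F)) ∧
    Rel (T.red f).1 y₁ ∧ Rel (T.red f).2 y₂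

variable {T : TwoRed K F k Fb} {m : ℕ} {Rel : Fb → J' → Prop}

theorem TwoRed.ne_zero_of_red_fst_ne_zero {f : T.O} (h : (T.red f).1 ≠ 0) : (f : F) ≠ 0 := by
  intro h0
  apply h
  have : f = 0 := Subtype.ext h0
  rw [this, map_zero]
  rfl

/-- the inverse of a unit for both valuations. -/
theorem TwoRed.exists_inv {f : T.O} (h₁ : (T.red f).1 ≠ 0) (h₂ : (T.red f).2 ≠ 0) :
    ∃ g : T.O, (g : F) = (f : F)⁻¹ ∧ T.red g = ((T.red f).1⁻¹, (T.red f).2⁻¹) := by
  have a₁ : T.R₁.red ⟨f, f.2.1⟩ ≠ 0 := h₁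
  have a₂ : T.R₂.red ⟨f, f.2.2⟩ ≠ 0 := h₂
  refine ⟨⟨(f : F)⁻¹, T.R₁.inv_mem_of_red_ne_zero a₁, T.R₂.inv_mem_of_red_ne_zero a₂⟩, rfl, ?_⟩
  exact Prod.ext (T.R₁.red_inv a₁) (T.R₂.red_inv a₂)

theorem tri_isAddRel (hRel : IsMulRel Rel) : IsAddRel (Tri T m Rel) where
  zero := ⟨0, 1, Pic0.mk_zero.symm, fun v => by simp, by
    rw [map_one]; exact hRel.one, by rw [map_one]; exact hRel.one⟩
  add := by
    rintro _ b c _ b' c' ⟨D, f, rfl, hf, h1, h2⟩ ⟨D', f', rfl, hf', h1', h2'⟩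
    have hf0 := TwoRed.ne_zero_of_red_fst_ne_zero (hRel.ne_zero h1)
    have hf0' := TwoRed.ne_zero_of_red_fst_ne_zero (hRel.ne_zero h1')
    refine ⟨D + D', f * f', (Pic0.mk_add D D').symm, fun v => ?_, ?_, ?_⟩
    · show (m : ℤ) * ((D : Divisor K F) + (D' : Divisor K F)) v = v.ord ((f : F) * (f' : F))
      rw [Finsupp.add_apply, mul_add, hf, hf', v.ord_mul hf0 hf0']
    · rw [map_mul]; exact hRel.mul h1 h1'
    · rw [map_mul]; exact hRel.mul h2 h2'
  neg := by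
    rintro _ b c ⟨D, f, rfl, hf, h1, h2⟩
    obtain ⟨g, hg, hgr⟩ := TwoRed.exists_inv (hRel.ne_zero h1) (hRel.ne_zero h2)
    refine ⟨-D, g, rfl, fun v => ?_, ?_, ?_⟩
    · show (m : ℤ) * (-(D : Divisor K F)) v = v.ord (g : F)
      rw [hg, Finsupp.neg_apply, mul_neg, hf, Place.ord_inv]
    · rw [hgr]; exact hRel.inv h1
    · rw [hgr]; exact hRel.inv h2

omit [AddCommGroup J'] in
/-- if the two reductions are constants times `m`-th powers, the class is toric. -/
theorem Tri.isToric [IsAlgClosed k] (hm : m ≠ 0) {y : Pic0 K F} {y₁ y₂ : J'}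
    (h : Tri T m Rel y y₁ y₂)
    (hz : ∀ w, (Rel w y₁ ∨ Rel w y₂) → ∃ (c : k) (u : Fb), c ≠ 0 ∧ u ≠ 0 ∧
      w = algebraMap k Fb c * u ^ m) : IsToric T m y := by
  obtain ⟨D, f, rfl, hf, h1, h2⟩ := h
  have key : ∀ w : Fb, (∃ (c : k) (u : Fb), c ≠ 0 ∧ u ≠ 0 ∧ w = algebraMap k Fb c * u ^ m) →
      ∃ a : Fb, a ≠ 0 ∧ w = a ^ m := by
    rintro w ⟨c, u, hc, hu, rfl⟩
    obtain ⟨e, he⟩ := IsAlgClosed.exists_pow_nat_eq c (Nat.pos_of_ne_zero hm)
    have he0 : e ≠ 0 := by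
      rintro rfl
      rw [zero_pow hm] at he
      exact hc he.symm
    refine ⟨algebraMap k Fb e * u, mul_ne_zero (by simpa using he0) hu, ?_⟩
    rw [mul_pow, ← map_pow, he]
  obtain ⟨a₁, ha₁, e₁⟩ := key _ (hz _ (Or.inl h1))
  obtain ⟨a₂, ha₂, e₂⟩ := key _ (hz _ (Or.inr h2))
  exact ⟨D, f, a₁, a₂, rfl, hf, ha₁, ha₂, Prod.ext e₁ e₂⟩

end Tri

end Fermat.Agent.S40
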